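import Fermat.Agent.GWEuler.Defs
import Fermat.Agent.IdeleClassCohomology.PowerClasses

/-!
# Adapted layers

Enlarging `S` makes a layer adapted (`exists_isAdapted`), and over an adapted layer the power
classes outside `S` come from units (`IsAdapted.powerClasses_le`).
-/

set_option autoImplicit false

noncomputable section

open ExtCitation

namespace FLTAgent.GWEuler

open FLTAgent.GalCoh FLTAgent.GlobalDuality FLTAgent.IdeleClassCohomology

variable {p : ℕ} [hp : Fact p.Prime]

theorem apply_of_pow_eq_one' (g : Gam) {z : QQbar} (hz : z ^ p = 1) :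
    g z = z ^ (cycloChar p g : ZMod p).val := by
  have : NeZero p := ⟨hp.out.ne_zero⟩
  obtain ⟨u, rfl⟩ := IsUnit.of_pow_eq_one hz hp.out.ne_zero
  exact modularCyclotomicCharacter.spec (AlgebraicClosure ℚ) (card_rootsOfUnity_eq_self p)
    (g : QQbar ≃+* QQbar) (t := u) (by rw [mem_rootsOfUnity]; exact Units.ext (by simpa using hz))

theorem hasRoots_iff_cycloChar (K : IntermediateField ℚ QQbar) :
    HasRoots p K ↔ ∀ g ∈ K.fixingSubgroup, cycloChar p g = 1 := by
  have : Fact (1 < p) := ⟨hp.out.one_lt⟩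
  constructor
  · intro h g hg
    obtain ⟨z, hz⟩ : ∃ z : QQbar, IsPrimitiveRoot z p :=
      ⟨_, cycRoot_spec ⟨p, hp.out⟩⟩
    have h1 : g z = z :=
      (IntermediateField.mem_fixingSubgroup_iff _ _).1 hg z (h z hz.pow_eq_one)
    rw [apply_of_pow_eq_one' g hz.pow_eq_one] at h1
    refine Units.ext ((ZMod.val_injective p) ?_)
    rw [Units.val_one, ZMod.val_one]
    exact hz.pow_inj (ZMod.val_lt _) hp.out.one_lt (by rw [pow_one]; exact h1)
  · intro h z hz
    rw [← InfiniteGalois.fixedField_fixingSubgroup K, IntermediateField.mem_fixedField_iff]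
    intro g hg
    rw [apply_of_pow_eq_one' g hz, h g hg, Units.val_one, ZMod.val_one, pow_one]

theorem hasRoots_of_mu {L : Layer} (hmu : ∀ g ∈ L.sub, cycloChar p g = 1) :
    HasRoots p L.field :=
  (hasRoots_iff_cycloChar L.field).2 hmu

/-- Enlarging `S` makes a layer adapted. -/
theorem exists_isAdapted {L : Layer} {S : Finset Nat.Primes} (hL : L.IsS S)
    (hpS : pPrime p ∈ S) (hmu : ∀ g ∈ L.sub, cycloChar p g = 1) :
    ∃ S', S ⊆ S' ∧ IsAdapted (p := p) L S' := by
  have := L.finite
  obtain ⟨S', hS, hfull⟩ := exists_isFull (K := L.field) S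
  refine ⟨S', hS, ⟨hS hpS, hL.mono hS, hmu, fun x hx => ?_⟩⟩
  obtain ⟨b, hb⟩ := hfull ⟨x, hx⟩
  refine ⟨1, b.1, hp.out.not_dvd_one, b.2, fun q hq σ => ?_⟩
  rw [one_smul]
  exact hb q hq σ

/-- In an adapted layer the power classes outside `S` come from units. -/
theorem IsAdapted.powerClasses_le {L : Layer} {S : Finset Nat.Primes}
    (h : IsAdapted (p := p) L S) [FiniteDimensional ℚ L.field] {R : Finset (Nat.Primes × Gam)}
    (hcov : covered L.field R = {j | j.1 ∈ S}) :
    powerClasses p L.field S ≤ unitClassesAway p L.field R := by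
  rintro _ ⟨a, ha, rfl⟩
  obtain ⟨y, hy⟩ := exists_of_mem_powerElts ha
  obtain ⟨m, b, hm, hb, hu⟩ := h.classTrivial y.1 y.2
  replace hb : b ∈ fixedPts L.field.fixingSubgroup GU := hb
  have h1 : fixedPrincipal L.field (m • a - p • ⟨b, hb⟩) ∈ awayUnits L.field S := by
    have h2 : m • y - fixedPrincipal L.field ⟨b, hb⟩ ∈ awayUnits L.field S := fun q hq σ => by
      have h4 := hu q hq σ
      rw [AddSubgroup.coe_sub, AddSubgroup.coe_nsmul]
      exact h4
    have := add_mem (nsmul_mem hy m) (nsmul_mem h2 p)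
    convert this using 1
    rw [map_sub, map_nsmul, map_nsmul, nsmul_sub, nsmul_sub, ← mul_nsmul', ← mul_nsmul', mul_comm]
    abel
  have h3 : QuotientAddGroup.mk' (powers p L.field) (m • a) ∈ unitClassesAway p L.field R := by
    refine ⟨m • a - p • ⟨b, hb⟩, fun j hj => ?_, ?_⟩
    · have h4 := h1 j.1 (fun hS => hj (by rw [hcov]; exact hS)) j.2
      rw [at_fixedPrincipal] at h4
      exact h4
    rw [map_sub, show QuotientAddGroup.mk' (powers p L.field) (p • (⟨b, hb⟩ : fixedPts _ GU)) = 0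
      from (QuotientAddGroup.eq_zero_iff _).2 ⟨_, rfl⟩, sub_zero]
  rw [map_nsmul] at h3
  obtain ⟨s, t, hst⟩ := (Int.isCoprime_iff_gcd_eq_one.2 (by
    exact_mod_cast (hp.out.coprime_iff_not_dvd.2 hm)) : IsCoprime (p : ℤ) (m : ℤ))
  rw [show QuotientAddGroup.mk' (powers p L.field) a =
      (s * p + t * (m : ℤ)) • QuotientAddGroup.mk' (powers p L.field) a by rw [hst, one_zsmul],
    add_zsmul, mul_zsmul, mul_zsmul, natCast_zsmul, natCast_zsmul, nsmul_powClass, zsmul_zero,
    zero_add]
  exact zsmul_mem h3 t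

end FLTAgent.GWEuler
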