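import Fermat.Agent.IdeleClassCohomology.SecondInequality
import Fermat.Agent.IdeleClassCohomology.PowerClasses
import Fermat.Agent.IdeleClassCohomology.RootLayer
import Fermat.Agent.GlobalDuality.Ram

/-!
# Characters unramified outside `S` and power classes

Every smooth character of the group of `K` into `ℤ/p` is a Kummer character (`exists_kummer_eq`),
and a radicand with a root in a layer unramified outside `S` is a power times units outside `S`
(`mem_powerElts_of_root_mem`).
-/

set_option autoImplicit false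

noncomputable section

namespace FLTAgent.GWEuler

open FLTAgent.GalCoh FLTAgent.GlobalDuality FLTAgent.IdeleClassCohomology

variable {p : ℕ} [hp : Fact p.Prime] {K : IntermediateField ℚ QQbar} [FiniteDimensional ℚ K]

/-- Every smooth character of the group of `K` into `ZMod p` is a Kummer character. -/
theorem exists_kummer_eq (hK : HasRoots p K) (χ : Additive K.fixingSubgroup →+ ZMod p)
    {M : Layer} (hM : M.sub ≤ K.fixingSubgroup)
    (hχ : ∀ g : K.fixingSubgroup, (g : Gam) ∈ M.sub → χ (Additive.ofMul g) = 0) :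
    ∃ a, kummer hK a = χ := by
  classical
  rcases eq_or_ne χ 0 with rfl | hne
  · exact ⟨0, map_zero _⟩
  set φ : K.fixingSubgroup →* Multiplicative (ZMod p) := AddMonoidHom.toMultiplicativeRight χ
  set N' : Subgroup Gam := φ.ker.map K.fixingSubgroup.subtype
  have hle : N' ≤ K.fixingSubgroup := Subgroup.map_subtype_le _
  have hsub : N'.subgroupOf K.fixingSubgroup = φ.ker :=
    Subgroup.comap_map_eq_self_of_injective (Subgroup.subtype_injective _) _
  have hker : ∀ g : K.fixingSubgroup, (g : Gam) ∈ N' ↔ χ (Additive.ofMul g) = 0 := by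
    intro g
    rw [← Subgroup.mem_subgroupOf, hsub, MonoidHom.mem_ker]
    rfl
  obtain ⟨g₀, hg₀⟩ : ∃ g₀, χ g₀ ≠ 0 := by
    by_contra h
    push Not at h
    exact hne (AddMonoidHom.ext h)
  have hsurj : Function.Surjective φ := fun c => by
    refine ⟨g₀.toMul ^ ((χ g₀)⁻¹ * Multiplicative.toAdd c).val, ?_⟩
    refine (Multiplicative.toAdd : Multiplicative (ZMod p) ≃ ZMod p).injective ?_
    show χ (((χ g₀)⁻¹ * Multiplicative.toAdd c).val • g₀) = _
    rw [map_nsmul, nsmul_eq_mul, ZMod.natCast_zmod_val, mul_comm, ← mul_assoc,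
      mul_inv_cancel₀ hg₀, one_mul]
  have hidx : N'.relIndex K.fixingSubgroup = p := by
    rw [Subgroup.relIndex, hsub, Subgroup.index_ker, MonoidHom.range_eq_top.2 hsurj,
      Subgroup.card_top]
    exact Nat.card_zmod p
  obtain ⟨D, htop, hbot, -⟩ := exists_cyclicStep (M := M)
    (fun g hg => (hker ⟨g, hM hg⟩).2 (hχ _ hg)) hle hidx (by rw [hsub]; exact φ.normal_ker)
    g₀.toMul.2 (fun h => hg₀ ((hker g₀.toMul).1 h))
  obtain rfl : D.K = K := by
    rw [← InfiniteGalois.fixedField_fixingSubgroup D.K,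
      ← InfiniteGalois.fixedField_fixingSubgroup K]
    exact congrArg IntermediateField.fixedField hbot
  obtain ⟨a, ha, hiff⟩ := D.exists_kummer hK
  have hiff' : ∀ g, χ g = 0 ↔ kummer hK a g = 0 := fun g => by
    rw [show g = Additive.ofMul g.toMul from rfl, ← hker, ← hiff, htop]
  obtain ⟨g₁, hg₁⟩ := exists_kummer_eq_one hK ha
  refine ⟨(χ g₁).val • a, AddMonoidHom.ext fun g => ?_⟩
  rw [map_nsmul]
  show (χ g₁).val • kummer hK a g = χ g
  have h0 : kummer hK a (g - (kummer hK a g).val • g₁) = 0 := by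
    rw [map_sub, map_nsmul, hg₁, nsmul_one, ZMod.natCast_zmod_val, sub_self]
  have h1 := (hiff' _).2 h0
  rw [map_sub, map_nsmul, nsmul_eq_mul, ZMod.natCast_zmod_val, sub_eq_zero] at h1
  rw [nsmul_eq_mul, ZMod.natCast_zmod_val, h1, mul_comm]

/-- A radicand whose root lies in an `S`-layer is a power times units outside `S`. -/
theorem mem_powerElts_of_root_mem {S : Finset Nat.Primes} {L' : Layer} (hS : L'.IsS S)
    (a : fixedPts K.fixingSubgroup GU) (hroot : (root p a.1).val ∈ L'.field) :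
    a ∈ powerElts p K S := by
  classical
  set r' := root p a.1
  have hexp : ∀ (q : Nat.Primes), q ∉ S → ∀ σ : Gam,
      ∃ k : ℤ, ‖emb q (σ r'.val)‖ = ((q : ℕ) : ℝ)⁻¹ ^ k := by
    intro q hq σ
    have hr : r' ∈ fixedPts L'.sub GU := fun s hs => GU.ext
      ((IntermediateField.mem_fixingSubgroup_iff _ _).1 hs _ hroot)
    have hfix : principal r' ∈ fixedPts L'.sub Idele := principal_mem_fixedPts_iff.2 hr
    have hloc : ∀ τ : LGal q, loc q τ ∈ L'.sub →
        τ • (principal r').at q σ = (principal r').at q σ := by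
      intro τ hτ
      have hconj : σ⁻¹ * loc q τ * σ ∈ L'.sub := by
        have := (Layer.sub_normal L').conj_mem _ hτ σ⁻¹
        rwa [inv_inv] at this
      rw [← Idele.at_loc_mul, show loc q τ * σ = σ * (σ⁻¹ * loc q τ * σ) by group]
      exact Idele.mem_fixedPts_iff.1 hfix q σ _ hconj
    obtain ⟨k, hk⟩ := exists_norm_eq_zpow_of_isS hS hq
      (⟨(principal r').at q σ, fun τ hτ => hloc τ hτ⟩ : LocU L' q)
    refine ⟨k, ?_⟩
    rw [← at_principal, hk, norm_qUnit]
  -- a fixed idele with the same valuations away from `S`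
  let T := ((principal a.1).finite_nonunit.toFinset).filter fun q => q ∉ S
  let k : ∀ q : Nat.Primes, q ∉ S → Gam → ℤ := fun q hq σ => (hexp q hq σ).choose
  have key : ∀ W : Set (Nat.Primes × Gam), ∃ z ∈ fixedPts K.fixingSubgroup Idele,
      (∀ q ∉ T, ∀ γ, z.at q γ ∈ unitsAt q) ∧ ∀ q σ, q ∉ S → cosetSet K q σ = W →
        ‖(z.at q σ).val‖ ^ p = ‖emb q (σ a.1.val)‖ := by
    intro W
    by_cases hW : ∃ q σ, q ∈ T ∧ cosetSet K q σ = W
    swap
    · refine ⟨0, zero_mem _, fun q _ γ => (unitsAt q).zero_mem, fun q σ hq e => ?_⟩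
      have hq' : q ∉ T := fun h => hW ⟨q, σ, h, e⟩
      have hu : (principal a.1).at q σ ∈ unitsAt q := by
        by_contra h
        exact hq' (Finset.mem_filter.2 ⟨(Set.Finite.mem_toFinset _).2 ⟨σ, h⟩, hq⟩)
      rw [show ((0 : Idele).at q σ).val = 1 from rfl, norm_one, one_pow]
      exact (mem_unitsAt_iff.1 hu).symm
    obtain ⟨q, σ, hqT, rfl⟩ := hW
    have hq : q ∉ S := (Finset.mem_filter.1 hqT).2
    have hval : ((k q hq σ) • qUnit q).val ∈ locField K q σ := by
      show (((qUnit q).toMul ^ (k q hq σ) : (PadicAlgCl (q : ℕ))ˣ) : PadicAlgCl (q : ℕ)) ∈ _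
      rw [Units.val_zpow_eq_zpow_val]
      refine zpow_mem ?_ _
      show (qUnit q).val ∈ locField K q σ
      rw [val_qUnit]
      exact natCast_mem _ _
    obtain ⟨z, hz, hz1, hz2⟩ := exists_pointIdele hval
    refine ⟨z, hz, fun r hr γ => ?_, fun r γ hr e => ?_⟩
    · by_cases h : (r, γ) ∈ cosetSet K q σ
      · exact absurd ((show r = q from h.1) ▸ hqT) hr
      · rw [hz2 r γ h]; exact (unitsAt r).zero_mem
    · have hmem : (r, γ) ∈ cosetSet K q σ := e ▸ mem_cosetSet_self r γ
      obtain ⟨rfl, τ, n, hn, rfl⟩ := mem_cosetSet_iff.1 hmem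
      rw [Idele.mem_fixedPts_iff.1 hz r _ n hn, Idele.at_loc_mul, hz1, norm_smul_LU]
      have h1 : ‖((k r hq σ) • qUnit r).val‖ = ‖emb r (σ r'.val)‖ := by
        show ‖(((qUnit r).toMul ^ (k r hq σ) : (PadicAlgCl (r : ℕ))ˣ) : PadicAlgCl (r : ℕ))‖ = _
        rw [Units.val_zpow_eq_zpow_val, norm_zpow]
        show ‖(qUnit r).val‖ ^ (k r hq σ) = _
        rw [norm_qUnit]
        exact (hexp r hq σ).choose_spec.symm
      rw [h1, ← norm_pow, ← map_pow, ← map_pow, ← GU.val_nsmul, nsmul_root]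
      have h2 := Idele.mem_fixedPts_iff.1 (fixedPrincipal K a).2 r (loc r τ * σ) n hn
      rw [at_fixedPrincipal, at_fixedPrincipal, Idele.at_loc_mul] at h2
      rw [← at_principal, ← at_principal, h2, norm_smul_LU]
  choose P hP hP0 hP' using key
  obtain ⟨M, hM⟩ := exists_layer_sub_le K
  obtain ⟨z, hz, hz'⟩ := exists_assemble_outside (K := K) (H := K.fixingSubgroup)
    T P le_rfl hM hP hP0
  refine mem_powerElts (y := ⟨z, hz⟩) fun q hq σ => ?_
  rw [AddSubgroup.coe_sub, AddSubgroup.coe_nsmul, Idele.at_sub, at_nsmul, at_fixedPrincipal,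
    mem_unitsAt_iff]
  show ‖(((principal a.1).at q σ).toMul / (p • z.at q σ).toMul :
    (PadicAlgCl (q : ℕ))ˣ).val‖ = 1
  rw [Units.val_div_eq_div_val, norm_div]
  show ‖emb q (σ a.1.val)‖ / ‖(p • z.at q σ).val‖ = 1
  rw [LU.val_nsmul, norm_pow, hz', hP' _ q σ hq rfl, div_self]
  exact norm_ne_zero_iff.2 fun h => GU.val_ne_zero a.1
    ((map_eq_zero σ).1 ((map_eq_zero (emb q)).1 h))

end FLTAgent.GWEuler
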