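import Fermat.Agent.GWEuler.ModuleLevel
import Fermat.Agent.GWEuler.GlobalUnits.KummerChar
import Fermat.Agent.GWEuler.GlobalUnits.Adapted
import Fermat.Agent.GlobalDuality.Roots

/-!
# Finiteness of `H¹` unramified outside `S`

A module has a layer through which it and `μ_p` factor (`exists_level`); restricted there, cocycles
are Kummer characters of power classes, so `H¹_S` is finite for `S ∋ p`
(`finite_continuousH1S`).
-/

set_option autoImplicit false

noncomputable section

open CategoryTheory groupCohomology Module ExtCitation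
open scoped Pointwise

namespace FLTAgent.GWEuler

open FLTAgent.GalCoh FLTAgent.GlobalDuality FLTAgent.IdeleClassCohomology

variable {p : ℕ} [hp : Fact p.Prime] {S : Finset Nat.Primes}

/-- A layer unramified outside `S` over a field unramified outside `S`. -/
theorem exists_layer_isS_le {F : IntermediateField ℚ QQbar} (hF : F.IsUnramifiedOutside S) :
    ∃ L : Layer, L.IsS S ∧ L.sub ≤ F.fixingSubgroup := by
  have := hF.1
  obtain ⟨M, hM⟩ := Layer.exists_ge F
  obtain ⟨L, hL, hN⟩ := exists_layer_of_subgroup (S := S) F.fixingSubgroup.normalCore (M := M)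
    (Subgroup.normal_le_normalCore.2 (IntermediateField.fixingSubgroup_antitone hM))
    fun q hq A hA g hg t => hF.2 q hq _ (Density.smul_liesOverPrime t hA)
      (Density.mem_inertiaSubgroupIn_smul hg t)
  exact ⟨L, hL, hN.le.trans (Subgroup.normalCore_le _)⟩

/-- A layer through which a module and the roots of unity of order `p` factor. -/
theorem exists_level (hpS : pPrime p ∈ S) {M : Rep.{0} (ZMod p) Gam} (hM : SLevel S M) :
    ∃ L : Layer, L.IsS S ∧ (∀ g ∈ L.sub, cycloChar p g = 1) ∧ ∀ g ∈ L.sub, M.ρ g = 1 := by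
  obtain ⟨F, hF, hs⟩ := hM
  have := hF.1
  have : FiniteDimensional ℚ (IntermediateField.adjoin ℚ ({(zetaU p).val} : Set QQbar)) :=
    IntermediateField.adjoin.finiteDimensional (Algebra.IsIntegral.isIntegral _)
  have := IntermediateField.finiteDimensional_sup F
    (IntermediateField.adjoin ℚ ({(zetaU p).val} : Set QQbar))
  obtain ⟨M', hM'⟩ := Layer.exists_ge (F ⊔ IntermediateField.adjoin ℚ ({(zetaU p).val} : Set QQbar))
  have hχ : ∀ g ∈ M'.sub, cycloChar p g = 1 := fun g hg => by
    have h1 : g • torsionHom p 1 = torsionHom p 1 := GU.ext (by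
      rw [GU.val_smul, show (torsionHom p (1 : ZMod p)) = zetaU p from by
        rw [← Nat.cast_one, torsionHom_natCast, one_smul]]
      exact (IntermediateField.mem_fixingSubgroup_iff _ _).1 hg _
        (hM' ((le_sup_right (a := F)) (IntermediateField.mem_adjoin_simple_self ℚ _))))
    rw [smul_torsion_one] at h1
    exact Units.ext (torsionHom_injective p h1)
  obtain ⟨L, hL, hN⟩ := exists_layer_of_subgroup (S := S) ((cycloChar p).ker ⊓ MonoidHom.ker M.ρ)
    (M := M') (fun g hg => ⟨hχ g hg, hs g (IntermediateField.fixingSubgroup_antitone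
      (le_sup_left.trans hM') hg)⟩)
    fun q hq A hA g hg => ⟨cycloChar_eq_one_of_inertia (fun h => hq (by rw [h]; exact hpS)) hA hg,
      hs g (hF.2 q hq A hA hg)⟩
  exact ⟨L, hL, fun g hg => (hN.le hg).1, fun g hg => (hN.le hg).2⟩
where
  smul_torsion_one {g : Gam} : g • torsionHom p 1 = torsionHom p (cycloChar p g : ZMod p) := by
    refine GU.ext ?_
    have hz : (zetaU p).val ^ p = 1 := by rw [← GU.val_nsmul, nsmul_zetaU]; rfl
    rw [← Nat.cast_one, torsionHom_natCast, one_smul, ← ZMod.natCast_zmod_val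
      (cycloChar p g : ZMod p), torsionHom_natCast, GU.val_smul, GU.val_nsmul,
      apply_of_pow_eq_one' g hz]

variable {L : Layer}

/-- A cocycle on a module trivial on the layer restricts to additive characters. -/
def cocycleHom {V : Rep.{0} (ZMod p) Gam} (hV : ∀ g ∈ L.sub, V.ρ g = 1) (c : cocycles₁ V) :
    Additive L.field.fixingSubgroup →+ V :=
  AddMonoidHom.mk' (fun g => c (g.toMul : Gam)) fun a b => by
    show c ((a.toMul : Gam) * (b.toMul : Gam)) = _
    rw [(mem_cocycles₁_iff (c : Gam → V)).1 c.2, hV _ a.toMul.2, Module.End.one_apply, add_comm]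

/-- The characters of a cocycle unramified outside `S` are Kummer characters of power classes. -/
theorem exists_powerElts_eq (hL : L.IsS S) (hmu : ∀ g ∈ L.sub, cycloChar p g = 1)
    {V : Rep.{0} (ZMod p) Gam} (hV : ∀ g ∈ L.sub, V.ρ g = 1) {c : cocycles₁ V}
    (hc : IsLevelConstantS₁ S c) (ℓ : V →ₗ[ZMod p] ZMod p) :
    haveI := L.finite
    ∃ a ∈ powerElts p L.field S,
      kummer (hasRoots_of_mu hmu) a = ℓ.toAddMonoidHom.comp (cocycleHom hV c) := by
  have := L.finite
  obtain ⟨F, hF, hconst⟩ := hc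
  obtain ⟨L₁, hL₁, hle⟩ := exists_layer_isS_le hF
  set L₂ := L.sup L₁
  have h0 : ∀ g ∈ L₂.sub, c g = 0 := fun g hg => by
    have := hconst 1 g (hle (Layer.sub_le (L.le_sup_right L₁) hg))
    rwa [one_mul, cocycles₁_map_one] at this
  obtain ⟨a, ha⟩ := exists_kummer_eq (hasRoots_of_mu hmu)
    (ℓ.toAddMonoidHom.comp (cocycleHom hV c)) (M := L₂) (Layer.sub_le (L.le_sup_left L₁))
    fun g hg => by
      show ℓ (c (g : Gam)) = 0
      rw [h0 g hg, map_zero]
  refine ⟨a, mem_powerElts_of_root_mem (hL.sup hL₁) a ?_, ha⟩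
  have := L₂.finite
  refine val_mem_of_fixed L₂.field fun g hg => ?_
  refine (kummer_apply_eq_zero_iff (hasRoots_of_mu hmu) a (nsmul_root p a.1)
    ⟨g, Layer.sub_le (L.le_sup_left L₁) hg⟩).1 ?_
  rw [ha]
  show ℓ (c g) = 0
  rw [h0 g hg, map_zero]

theorem finite_powerClasses (hmu : ∀ g ∈ L.sub, cycloChar p g = 1) :
    haveI := L.finite
    Finite (powerClasses p L.field S) := by
  have := L.finite
  obtain ⟨R, hR, hcov, -⟩ := exists_places L.field S
  refine Nat.finite_of_card_ne_zero ?_
  rw [card_powerClasses (hasRoots_of_mu hmu) hR hcov]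
  have := finite_sClass (K := L.field) (S := S)
  exact mul_ne_zero (pow_ne_zero _ hp.out.ne_zero) AddSubgroup.index_ne_zero_of_finite

/-- `H¹` unramified outside `S ∋ p` is finite. -/
theorem finite_continuousH1S (S : Finset Nat.Primes) (hpS : pPrime p ∈ S)
    (M : Rep.{0} (ZMod p) Gam) [FiniteDimensional (ZMod p) M] (hM : SLevel S M) :
    Module.Finite (ZMod p) (continuousH1S S M) := by
  classical
  obtain ⟨L, hL, hmu, hV⟩ := exists_level hpS hM
  have := L.finite
  have : Finite M := Module.finite_of_finite (ZMod p)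
  have := finite_powerClasses (S := S) hmu
  have : Finite (M →ₗ[ZMod p] ZMod p) := Module.finite_of_finite (ZMod p)
  choose a ha ha' using fun (c : levelCocyclesS₁ S M) (ℓ : M →ₗ[ZMod p] ZMod p) =>
    exists_powerElts_eq hL hmu hV (c := c.1) c.2 ℓ
  let code : levelCocyclesS₁ S M →
      (Gam ⧸ L.sub → M) × ((M →ₗ[ZMod p] ZMod p) → powerClasses p L.field S) :=
    fun c => (fun h => c.1 (Quotient.out h), fun ℓ => ⟨_, ⟨a c ℓ, ha c ℓ, rfl⟩⟩)
  have hinj : Function.Injective code := by
    intro c d h
    have hN : ∀ n ∈ L.sub, c.1 n = d.1 n := fun n hn => by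
      rw [← sub_eq_zero]
      refine (Module.forall_dual_apply_eq_zero_iff (ZMod p) _).1 fun ℓ => ?_
      have h1 := congrArg Subtype.val (congrFun (congrArg Prod.snd h : (code c).2 = (code d).2) ℓ)
      obtain ⟨z, hz, e⟩ := (QuotientAddGroup.mk'_eq_mk' _).1 h1
      have h2 := congrArg (fun u => kummer (hasRoots_of_mu hmu) u
        (Additive.ofMul (⟨n, hn⟩ : L.field.fixingSubgroup))) e
      simp only [map_add, (kummer_eq_zero_iff (hasRoots_of_mu hmu) z).2 hz, add_zero, ha',
        AddMonoidHom.comp_apply] at h2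
      rw [map_sub, sub_eq_zero]
      exact h2
    refine Subtype.ext (cocycles₁_ext fun g => ?_)
    have hn : (Quotient.out (QuotientGroup.mk g : Gam ⧸ L.sub))⁻¹ * g ∈ L.sub := by
      rw [← QuotientGroup.eq_one_iff, QuotientGroup.mk_mul, QuotientGroup.mk_inv,
        QuotientGroup.out_eq', inv_mul_cancel]
    rw [show g = Quotient.out (QuotientGroup.mk g : Gam ⧸ L.sub) *
        ((Quotient.out (QuotientGroup.mk g : Gam ⧸ L.sub))⁻¹ * g) by group,
      (mem_cocycles₁_iff (c.1 : Gam → M)).1 c.1.2, (mem_cocycles₁_iff (d.1 : Gam → M)).1 d.1.2,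
      hN _ hn, show c.1 (Quotient.out (QuotientGroup.mk g : Gam ⧸ L.sub)) =
        d.1 (Quotient.out (QuotientGroup.mk g : Gam ⧸ L.sub)) from
          congrFun (congrArg Prod.fst h : (code c).1 = (code d).1) (QuotientGroup.mk g)]
  have : Finite (levelCocyclesS₁ S M) := Finite.of_injective code hinj
  have : Module.Finite (ZMod p) (levelCocyclesS₁ S M) := Module.Finite.of_finite
  exact Module.Finite.map (levelCocyclesS₁ S M) (H1π M).hom

end FLTAgent.GWEuler
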