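import Fermat.Agent.GWEuler.GlobalUnits.LogLattice

/-!
# Additive functions at the units outside `S`

`redMod_layerUnits_eq`: the value of an additive function at the units outside `S` modulo `p`, from
the `S`-unit theorem and the roots of unity.
-/

set_option autoImplicit false

noncomputable section

open CategoryTheory Module ExtCitation NumberField

namespace FLTAgent.GWEuler

open FLTAgent.GalCoh FLTAgent.GlobalDuality FLTAgent.IdeleClassCohomology

variable {p : ℕ} [hp : Fact p.Prime] (L : Layer) (S : Finset Nat.Primes)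

instance finite_placeIdx : Finite (PlaceIdx L S) := inferInstance

/-- An integral unit as a unit outside `S`. -/
def unitOfInt (u : (𝓞 L.field)ˣ) : layerUnits L S :=
  haveI := L.finite
  ⟨⟨(unitsToGlobal L.field (Additive.ofMul u)).1, (unitsToGlobal L.field (Additive.ofMul u)).2.1⟩,
    fun q _ σ => (unitsToGlobal L.field (Additive.ofMul u)).2.2 q σ⟩

theorem unitLog_unitOfInt_inl (u : (𝓞 L.field)ˣ) (w : InfinitePlace L.field) :
    unitLog L S (unitOfInt L S u)
      ⟨Sum.inl (), (Equiv.ofBijective _ (infEquivFun_bijective L S)).symm w⟩ =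
      Real.log (w ((u : 𝓞 L.field) : L.field)) := by
  obtain ⟨c, rfl⟩ := (infEquivFun_bijective L S).2 w
  rw [show (Equiv.ofBijective _ (infEquivFun_bijective L S)).symm (infEquivFun L S c) = c from
    (Equiv.ofBijective _ (infEquivFun_bijective L S)).symm_apply_apply c, infEquivFun,
    infPlace_apply]
  rfl

theorem unitLog_unitOfInt_inr (u : (𝓞 L.field)ˣ) (q : S)
    (c : (Gam ⧸ L.sub) ⧸ decomp L S (Sum.inr q)) :
    unitLog L S (unitOfInt L S u) ⟨Sum.inr q, c⟩ = 0 := by
  have := L.finite
  show Real.log ‖emb q.1 (((placeRep L S c)⁻¹ : Gam) _)‖ = 0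
  rw [show ‖emb q.1 (((placeRep L S c)⁻¹ : Gam) (unitOfInt L S u).1.1.val)‖ = 1 from
    (unitsToGlobal L.field (Additive.ofMul u)).2.2 q.1 _]
  exact Real.log_one

theorem span_latticeLog : Submodule.span ℝ (Set.range (latticeLog L S)) = ⊤ := by
  classical
  have := L.finite
  obtain ⟨R, hR, hcov, -⟩ := exists_places L.field S
  let := Fintype.ofFinite (PlaceIdx L S)
  by_contra hne
  obtain ⟨f, hf0, hf⟩ := Submodule.exists_le_ker_of_lt_top _ (lt_top_iff_ne_top.2 hne)
  set J := Equiv.ofBijective _ (joinIdx_bijective L S hR hcov) with hJ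
  let c : PlaceIdx L S → ℝ := fun y => f (fun z => if y = z then 1 else 0)
  have hfv : ∀ v, f v = (∑ w, v (J (Sum.inl w)) * c (J (Sum.inl w))) +
      ∑ i, v (J (Sum.inr i)) * c (J (Sum.inr i)) := fun v => by
    conv_lhs => rw [pi_eq_sum_univ v, map_sum, ← J.sum_comp, Fintype.sum_sum_type]
    simp only [map_smul, smul_eq_mul]
    rfl
  have hzero : ∀ x, f (latticeLog L S x) = 0 := fun x =>
    LinearMap.mem_ker.1 (hf (Submodule.subset_span ⟨x, rfl⟩))
  have hlog : ∀ a : layerUnits L S, f (unitLog L S a) = 0 := fun a => by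
    rw [← hzero (toFree L S a, 0)]
    refine congrArg f (funext fun y => ?_)
    show unitLog L S a y = freeLog L S (toFree L S a) y + ((0 : ℤ) : ℝ) * infVec L S y
    rw [Int.cast_zero, zero_mul, add_zero, freeLog_toFree]
  set C : InfinitePlace L.field → ℝ := fun w => c (J (Sum.inl w))
  have hC0 : ∑ w, C w = 0 := by
    rw [← hzero (0, fun _ => 1), hfv, Finset.sum_eq_zero (s := (Finset.univ : Finset R))
      fun i _ => ?_, add_zero]
    · refine Finset.sum_congr rfl fun w _ => ?_
      show C w = (freeLog L S 0 _ + ((1 : ℤ) : ℝ) * 1) * C w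
      rw [map_zero, Pi.zero_apply, Int.cast_one, zero_add, one_mul, one_mul]
    · show (freeLog L S 0 _ + ((1 : ℤ) : ℝ) * 0) * _ = 0
      rw [map_zero, Pi.zero_apply, mul_zero, zero_add, zero_mul]
  have hunit : ∀ u : (𝓞 L.field)ˣ,
      ∑ w, Real.log (w ((u : 𝓞 L.field) : L.field)) * C w = 0 := fun u => by
    rw [← hlog (unitOfInt L S u), hfv, Finset.sum_eq_zero (s := (Finset.univ : Finset R))
      fun i _ => by
        show unitLog L S (unitOfInt L S u) (joinIdx L S hcov (Sum.inr i)) * _ = 0
        rw [joinIdx, unitLog_unitOfInt_inr, zero_mul], add_zero]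
    exact Finset.sum_congr rfl fun w _ => by
      show _ = unitLog L S (unitOfInt L S u) (joinIdx L S hcov (Sum.inl w)) * C w
      rw [joinIdx, unitLog_unitOfInt_inl]
  -- Dirichlet: the coefficients at infinity are proportional to the multiplicities
  let w₁ : InfinitePlace L.field := Units.dirichletUnitTheorem.w₀
  set d : InfinitePlace L.field → ℝ := fun w => C w / (w.mult : ℝ) with hd
  have hmult : ∀ w : InfinitePlace L.field, (w.mult : ℝ) ≠ 0 := fun w =>
    Nat.cast_ne_zero.2 InfinitePlace.mult_ne_zero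
  have hdw : ∀ w, d w = d w₁ := by
    intro w
    by_cases hw : w = w₁
    · rw [hw]
    let ev : Units.dirichletUnitTheorem.logSpace L.field →ₗ[ℝ] ℝ :=
      ∑ v : {v : InfinitePlace L.field // v ≠ Units.dirichletUnitTheorem.w₀},
        (d v.1 - d w₁) • LinearMap.proj v
    have hev : ev = 0 := by
      refine LinearMap.ker_eq_top.1 (top_le_iff.1 ?_)
      rw [← Units.dirichletUnitTheorem.unitLattice_span_eq_top, Submodule.span_le]
      rintro _ ⟨x, -, rfl⟩
      obtain ⟨u, rfl⟩ : ∃ u, Additive.ofMul u = x := ⟨x.toMul, rfl⟩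
      refine LinearMap.mem_ker.2 ?_
      simp only [ev, LinearMap.sum_apply, LinearMap.smul_apply, LinearMap.proj_apply, smul_eq_mul]
      show ∑ v : {v // v ≠ Units.dirichletUnitTheorem.w₀},
        (d v.1 - d w₁) * ((v.1.mult : ℝ) * Real.log (v.1 ((u : 𝓞 L.field) : L.field))) = 0
      have h1 : ∑ v : InfinitePlace L.field,
          (d v - d w₁) * ((v.mult : ℝ) * Real.log (v ((u : 𝓞 L.field) : L.field))) = 0 := by
        simp only [sub_mul, Finset.sum_sub_distrib, ← Finset.mul_sum, Units.sum_mult_mul_log,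
          mul_zero, sub_zero]
        rw [← hunit u]
        refine Finset.sum_congr rfl fun v _ => ?_
        rw [hd]
        field_simp [hmult v]
      rw [Fintype.sum_eq_add_sum_subtype_ne _ w₁] at h1
      simpa using h1
    have h2 := LinearMap.congr_fun hev (Pi.single ⟨w, hw⟩ 1)
    simp only [ev, LinearMap.sum_apply, LinearMap.smul_apply, LinearMap.proj_apply, smul_eq_mul,
      LinearMap.zero_apply] at h2
    rw [Finset.sum_eq_single ⟨w, hw⟩ (fun v _ hv => by rw [Pi.single_eq_of_ne hv, mul_zero])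
      (fun h => absurd (Finset.mem_univ _) h), Pi.single_eq_same, mul_one] at h2
    exact sub_eq_zero.1 h2
  have hCw : ∀ w, C w = (w.mult : ℝ) * d w₁ := fun w => by
    rw [← hdw w, hd, mul_div_cancel₀ _ (hmult w)]
  have hd1 : d w₁ = 0 := by
    have h1 := hC0
    simp only [hCw, ← Finset.sum_mul] at h1
    exact (mul_eq_zero.1 h1).resolve_left (ne_of_gt (Finset.sum_pos
      (fun w _ => Nat.cast_pos.2 InfinitePlace.mult_pos) Finset.univ_nonempty))
  have hCz : ∀ w, C w = 0 := fun w => by rw [hCw, hd1, mul_zero]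
  -- the finite places are separated by their own units
  have hfin : ∀ i, c (J (Sum.inr i)) = 0 := by
    intro i
    obtain ⟨a, hai, hak⟩ := exists_placeOrds_eq_single hR i
    set a' : layerUnits L S := ⟨a.1, by rw [layerUnits_eq_placeUnits L S hcov]; exact a.2⟩
    have hz : ∀ k : R, placeOrds R a k = 0 ↔
        unitLog L S a' (joinIdx L S hcov (Sum.inr k)) = 0 := fun k => by
      rw [joinIdx, unitLog_finIdx, placeOrds_apply, ideleOrdAt_eq_zero_iff, mem_unitsAt_iff,
        at_fixedPrincipal, at_principal]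
      constructor
      · intro h
        rw [h, Real.log_one]
      · exact fun h => Real.eq_one_of_pos_of_log_eq_zero
          (norm_pos_iff.2 ((map_ne_zero _).2 ((map_ne_zero _).2 (GU.val_ne_zero _)))) h
    have h1 := hlog a'
    rw [hfv, Finset.sum_eq_zero (s := (Finset.univ : Finset (InfinitePlace L.field)))
      fun w _ => by rw [show c (J (Sum.inl w)) = 0 from hCz w, mul_zero], zero_add,
      Finset.sum_eq_single i (fun k _ hk => ?_) fun h => absurd (Finset.mem_univ _) h] at h1
    · exact (mul_eq_zero.1 h1).resolve_left fun h => hai ((hz i).2 h)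
    · show unitLog L S a' (joinIdx L S hcov (Sum.inr k)) * _ = 0
      rw [(hz k).1 (hak k hk), zero_mul]
  refine hf0 (LinearMap.ext fun v => ?_)
  rw [hfv, LinearMap.zero_apply]
  simp [hfin, show ∀ w, c (J (Sum.inl w)) = 0 from hCz]

theorem finrank_lattice_le :
    finrank ℤ (UnitsFree L S × PermLattice (PointIdx L)) ≤ Nat.card (PlaceIdx L S) := by
  classical
  have := L.finite
  obtain ⟨R, hR, hcov, -⟩ := exists_places L.field S
  have : Unique (PointIdx L) := ⟨⟨basePoint L⟩, fun a => Subsingleton.elim _ _⟩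
  rw [Module.finrank_prod, ← Nat.card_eq_of_bijective _ (joinIdx_bijective L S hR hcov),
    Nat.card_sum, Nat.card_eq_fintype_card, Nat.card_eq_fintype_card, Fintype.card_coe]
  have h1 : finrank ℤ (UnitsFree L S) ≤ finrank ℤ (layerUnits L S) :=
    (toFree L S).toIntLinearMap.finrank_le_finrank_of_surjective (toFree_surjective L S)
  have h2 : finrank ℤ (PermLattice (PointIdx L)) = 1 := by
    show finrank ℤ (PointIdx L → ℤ) = 1
    rw [Module.finrank_pi, Fintype.card_unique]
  have h3 : 1 ≤ Fintype.card (InfinitePlace L.field) := Fintype.card_pos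
  rw [(finrank_layerUnits L S hR hcov).2] at h1
  omega

variable {L S}

/-- The cyclotomic character of the layer. -/
def cycQuot (hmu : ∀ g ∈ L.sub, cycloChar p g = 1) : (Gam ⧸ L.sub) →* (ZMod p)ˣ :=
  QuotientGroup.lift L.sub (cycloChar p) fun g hg => MonoidHom.mem_ker.2 (hmu g hg)

/-- A character as an action on the line. -/
def lineAct {G : Type} [Group G] (χ : G →* (ZMod p)ˣ) : Representation (ZMod p) G (ZMod p) where
  toFun g := (χ g : ZMod p) • LinearMap.id
  map_one' := LinearMap.ext fun z => by simp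
  map_mul' g h := LinearMap.ext fun z => by simp [mul_assoc, mul_left_comm]

theorem smul_torsionHom (g : Gam) (c : ZMod p) :
    g • torsionHom p c = torsionHom p ((cycloChar p g : ZMod p) * c) := by
  refine GU.ext ?_
  have h : ∀ i : ℕ, (i • zetaU p : GU).val = (zetaU p).val ^ i := fun i => GU.val_nsmul i _
  have hz : (zetaU p).val ^ p = 1 := by
    rw [← GU.val_nsmul, nsmul_zetaU]; rfl
  rw [← ZMod.natCast_zmod_val c, ← ZMod.natCast_zmod_val (cycloChar p g : ZMod p),
    ← Nat.cast_mul, torsionHom_natCast, torsionHom_natCast, GU.val_smul, h, h, map_pow,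
    apply_of_pow_eq_one' g hz, ← pow_mul]

instance finite_unitsTors' : Module.Finite ℤ (unitsTors L S) :=
  inferInstanceAs (Module.Finite ℤ (unitsTors L S).toIntSubmodule)

theorem redMod_unitsTors {e : Rep.{0} (ZMod p) (Gam ⧸ L.sub) → ℤ} (he : IsAdditive e)
    (hmu : ∀ g ∈ L.sub, cycloChar p g = 1) :
    e (redMod p (Gam ⧸ L.sub) (unitsTors L S)) = e (Rep.of (lineAct (cycQuot hmu))) := by
  have := L.finite
  have := finite_unitsTors L S
  set T := unitsTors L S
  let φ : Multiplicative T →* QQbar :=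
    { toFun := fun t => t.toAdd.1.1.1.val
      map_one' := rfl
      map_mul' := fun a b => rfl }
  have hφ : Function.Injective φ := fun a b h =>
    Multiplicative.toAdd.injective (Subtype.ext (Subtype.ext (Subtype.ext (GU.ext h))))
  have : IsCyclic (Multiplicative T) := isCyclic_of_injective_ringHom φ hφ
  obtain ⟨t₀, hgen⟩ := IsCyclic.exists_generator (α := Multiplicative T)
  have ht₀ := orderOf_eq_card_of_forall_mem_zpowers hgen
  -- the roots of unity of order p
  have hz : torsionHom p 1 ∈ fixedPts L.sub GU := fun g hg => by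
    rw [smul_torsionHom, hmu g hg, Units.val_one, one_mul]
  have hzS : (⟨_, hz⟩ : fixedPts L.sub GU) ∈ layerUnits L S := fun q _ σ => by
    show ‖emb q (σ (torsionHom p 1).val)‖ = 1
    refine (pow_eq_one_iff_of_nonneg (norm_nonneg _) hp.out.ne_zero).1 ?_
    rw [← norm_pow, ← map_pow, ← map_pow, ← GU.val_nsmul, ← map_nsmul, nsmul_one,
      ZMod.natCast_self, map_zero]
    show ‖emb q (σ 1)‖ = 1
    rw [map_one, map_one, norm_one]
  set ζ : layerUnits L S := ⟨_, hzS⟩
  have hpζ : p • ζ = 0 := Subtype.ext (Subtype.ext (by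
    show p • torsionHom p 1 = 0
    rw [← map_nsmul, nsmul_one, ZMod.natCast_self, map_zero]))
  set ζT : T := ⟨ζ, isOfFinAddOrder_iff_nsmul_eq_zero.2 ⟨p, hp.out.pos, hpζ⟩⟩
  have hζ0 : ζT ≠ 0 := fun h => one_ne_zero (torsionHom_injective p
    ((congrArg (fun t : T => t.1.1.1) h).trans (map_zero (torsionHom p)).symm))
  obtain ⟨k, hk⟩ : p ∣ Nat.card T := by
    rw [← addOrderOf_eq_prime (Subtype.ext hpζ : p • ζT = 0) hζ0]
    exact addOrderOf_dvd_natCard ζT
  have hc0 : Nat.card T ≠ 0 := Nat.card_pos.ne'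
  have ht₀' : addOrderOf t₀.toAdd = Nat.card T := by
    rw [← orderOf_ofAdd_eq_addOrderOf, ofAdd_toAdd, ht₀]
    rfl
  have hkill : ∀ t : T, p • (k • t).1.1.1 = 0 := fun t =>
    congrArg (fun u : T => u.1.1.1) (show p • k • t = 0 by
      rw [← mul_nsmul', ← hk]; exact card_nsmul_eq_zero')
  choose ψ hψ using fun t : T => exists_torsionHom_eq p (hkill t)
  let ψ' : T →+ ZMod p := AddMonoidHom.mk' ψ fun a b => torsionHom_injective p (by
    rw [map_add, hψ, hψ, hψ, nsmul_add]; rfl)
  let F : ModP T p →+ ZMod p := QuotientAddGroup.lift _ ψ' (by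
    rintro _ ⟨t, rfl⟩
    show ψ' (p • t) = 0
    rw [map_nsmul, nsmul_eq_mul, ZMod.natCast_self, zero_mul])
  have := finite_redMod (p := p) (G := Gam ⧸ L.sub) T
  have : Module.Finite (ZMod p) (Rep.of (lineAct (cycQuot (p := p) hmu))) :=
    inferInstanceAs (Module.Finite (ZMod p) (ZMod p))
  refine he.eq_of_bijective _ (Rep.of (lineAct (cycQuot hmu))) (AddMonoidHom.toZModLinearMap p F)
    (fun c x => ?_) ⟨(injective_iff_map_eq_zero F).2 fun x hx => ?_, fun z => ?_⟩
  · induction x using QuotientAddGroup.induction_on with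
    | H t =>
      induction c using QuotientGroup.induction_on with
      | _ g =>
        refine torsionHom_injective p ?_
        show torsionHom p (ψ ((QuotientGroup.mk g : Gam ⧸ L.sub) • t)) =
          torsionHom p ((cycloChar p g : ZMod p) * ψ t)
        rw [hψ, ← smul_torsionHom, hψ]
        show _ = g • (k • t).1.1.1
        rw [← smul_comm]
        rfl
  · induction x using QuotientAddGroup.induction_on with
    | H t =>
      have h1 : (k • t).1.1.1 = 0 := by
        rw [← hψ, show ψ t = 0 from hx, map_zero]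
      have h2 : k • t = 0 := Subtype.ext (Subtype.ext (Subtype.ext h1))
      obtain ⟨i, hi⟩ : ∃ i : ℕ, i • t₀.toAdd = t := by
        obtain ⟨i, hi⟩ := Submonoid.mem_powers_iff _ _ |>.1
          ((IsOfFinOrder.mem_powers_iff_mem_zpowers (isOfFinOrder_of_finite t₀)).2
            (hgen (Multiplicative.ofAdd t)))
        exact ⟨i, congrArg Multiplicative.toAdd hi⟩
      subst hi
      have h3 := addOrderOf_dvd_iff_nsmul_eq_zero.2 ((mul_nsmul' t₀.toAdd k i).trans h2)
      rw [ht₀', hk, mul_comm p k] at h3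
      obtain ⟨j, rfl⟩ := Nat.dvd_of_mul_dvd_mul_left
        (Nat.pos_of_ne_zero fun h => hc0 (by rw [hk, h, mul_zero])) h3
      refine (QuotientAddGroup.eq_zero_iff _).2 ⟨j • t₀.toAdd, ?_⟩
      show p • j • t₀.toAdd = (p * j) • t₀.toAdd
      rw [mul_nsmul']
  · have h1 : ψ t₀.toAdd ≠ 0 := fun h => by
      have h2 : k • t₀.toAdd = 0 := Subtype.ext (Subtype.ext (Subtype.ext (by
        rw [← hψ, h, map_zero]; rfl)))
      have h3 := addOrderOf_dvd_iff_nsmul_eq_zero.2 h2
      rw [ht₀', hk] at h3
      have hk0 : 0 < k := Nat.pos_of_ne_zero fun h => hc0 (by rw [hk, h, mul_zero])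
      have := Nat.le_of_dvd hk0 h3
      nlinarith [hp.out.two_le]
    refine ⟨QuotientAddGroup.mk ((z * (ψ t₀.toAdd)⁻¹).val • t₀.toAdd), ?_⟩
    show ψ' ((z * (ψ t₀.toAdd)⁻¹).val • t₀.toAdd) = z
    rw [map_nsmul, nsmul_eq_mul, ZMod.natCast_zmod_val]
    exact inv_mul_cancel_right₀ h1 z

/-- The value of an additive function at the units outside `S`. -/
theorem redMod_layerUnits_eq {e : Rep.{0} (ZMod p) (Gam ⧸ L.sub) → ℤ} (he : IsAdditive e)
    (hmu : ∀ g ∈ L.sub, cycloChar p g = 1) :
    e (redMod p (Gam ⧸ L.sub) (layerUnits L S)) + e (permRep p (Gam ⧸ L.sub) (PointIdx L)) =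
      e (Rep.of (lineAct (cycQuot hmu))) + e (permRep p (Gam ⧸ L.sub) (PlaceIdx L S)) := by
  have h1 := redMod_eq_add he (A := unitsTors L S) (B := layerUnits L S) (C := UnitsFree L S)
    (unitsTors L S).subtype (toFree L S) (fun _ _ => rfl) (fun _ _ => rfl)
    Subtype.val_injective (toFree_surjective L S)
    (fun b => (QuotientAddGroup.eq_zero_iff b).trans ⟨fun h => ⟨⟨b, h⟩, rfl⟩,
      fun ⟨a, ha⟩ => ha ▸ a.2⟩)
    fun x => eq_zero_of_nsmul L S hp.out.ne_zero
  have h2 := redMod_eq_add he (A := UnitsFree L S) (B := UnitsFree L S × PermLattice (PointIdx L))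
    (C := PermLattice (PointIdx L)) (AddMonoidHom.inl _ _) (AddMonoidHom.snd _ _)
    (fun g a => Prod.ext rfl (smul_zero g).symm) (fun _ _ => rfl)
    (fun a b h => congrArg Prod.fst h) Prod.snd_surjective
    (fun b => ⟨fun h => ⟨b.1, Prod.ext rfl h.symm⟩, fun ⟨a, ha⟩ => ha ▸ rfl⟩)
    fun x hx => funext fun y => by
      have h := congrFun hx y
      exact (smul_eq_zero.1 h).resolve_left hp.out.ne_zero
  have h3 := redMod_eq_permRep he (UnitsFree L S × PermLattice (PointIdx L)) (latticeLog L S)
    (latticeLog_smul L S) (span_latticeLog L S) (finrank_lattice_le L S)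
  rw [redMod_unitsTors he hmu] at h1
  rw [PermLattice.redMod_eq _ he] at h2
  rw [h3] at h2
  omega

end FLTAgent.GWEuler
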