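import Fermat.Agent.GWEuler.GlobalUnits.KummerHom

/-!
# The units defect on modules with a trace

`unitsDefect_eq_zero`: over an adapted layer the units defect vanishes for a module with a trace,
by Kummer theory and the Galois structure of the units outside `S`.
-/

set_option autoImplicit false

noncomputable section

open CategoryTheory groupCohomology Module ExtCitation

namespace FLTAgent.GWEuler

open FLTAgent.GalCoh FLTAgent.GlobalDuality FLTAgent.IdeleClassCohomology

variable {p : ℕ} [hp : Fact p.Prime] {L : Layer} {S : Finset Nat.Primes}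
  {M : Rep.{0} (ZMod p) Gam} (htriv : ∀ g ∈ L.sub, M.ρ g = 1)

theorem levelRep_invariants_top :
    Representation.invariants ((levelRep M htriv).ρ.comp (⊤ : Subgroup (Gam ⧸ L.sub)).subtype) =
      M.ρ.invariants := by
  ext m
  refine ⟨fun h g => h ⟨QuotientGroup.mk g, trivial⟩, fun h c => ?_⟩
  obtain ⟨g, hg⟩ := QuotientGroup.mk_surjective c.1
  show (levelRep M htriv).ρ c.1 m = m
  rw [← hg]
  exact h g

theorem levelRep_invariants_decomp (v : extArithIndex S) :
    Representation.invariants ((levelRep M htriv).ρ.comp (decomp L S v).subtype) =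
      (Rep.res (extArithLoc S v) M).ρ.invariants := by
  ext m
  refine ⟨fun h τ => h ⟨QuotientGroup.mk (extArithLoc S v τ), ⟨_, ⟨τ, rfl⟩, rfl⟩⟩, fun h c => ?_⟩
  obtain ⟨_, ⟨τ, rfl⟩, hc⟩ := c.2
  show (levelRep M htriv).ρ c.1 m = m
  rw [← hc]
  exact h τ

theorem homSub_lineAct (hmu : ∀ g ∈ L.sub, cycloChar p g = 1) :
    homSub (levelRep M htriv) (Rep.of (lineAct (cycQuot hmu))) =
      ((M.dualTwist (cycloChar p)).ρ.invariants : Submodule (ZMod p) (Dual (ZMod p) M)) := by
  ext h
  constructor
  · intro hh g
    refine LinearMap.ext fun m => ?_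
    have h1 : h (M.ρ g⁻¹ m) = (cycloChar p g⁻¹ : ZMod p) * h m := hh (QuotientGroup.mk g⁻¹) m
    show (cycloChar p g : ZMod p) * h (M.ρ g⁻¹ m) = h m
    rw [h1, map_inv, ← mul_assoc, Units.mul_inv, one_mul]
  · intro hh c m
    obtain ⟨g, rfl⟩ := QuotientGroup.mk_surjective c
    have h1 : (cycloChar p g : ZMod p) * h (M.ρ g⁻¹ (M.ρ g m)) = h (M.ρ g m) :=
      LinearMap.congr_fun (hh g) (M.ρ g m)
    rw [← Module.End.mul_apply, ← map_mul, inv_mul_cancel, map_one, Module.End.one_apply] at h1
    exact h1.symm

/-- The units defect vanishes for a module with a trace over an adapted layer. -/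
theorem unitsDefect_eq_zero (hS : IsAdapted (p := p) L S) [FiniteDimensional (ZMod p) M]
    (htr : HasTrace (levelRep M htriv)) : unitsDefect S M = 0 := by
  have : FiniteDimensional (ZMod p) (levelRep M htriv) :=
    inferInstanceAs (FiniteDimensional (ZMod p) M)
  have he := isAdditive_homDim (levelRep M htriv) htr
  have h1 := redMod_layerUnits_eq (L := L) (S := S) he hS.mu
  have h2 : homDim (levelRep M htriv) (permRep p (Gam ⧸ L.sub) (PointIdx L)) =
      finrank (ZMod p) M.ρ.invariants := by
    rw [homDim_permRep (fun _ : Unit => ⊤) htr, Fintype.univ_unit, Finset.sum_singleton,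
      levelRep_invariants_top]
    rfl
  have h3 : homDim (levelRep M htriv) (permRep p (Gam ⧸ L.sub) (PlaceIdx L S)) =
      ∑ v : extArithIndex S, (finrank (ZMod p) (Rep.res (extArithLoc S v) M).ρ.invariants : ℤ) := by
    rw [homDim_permRep (fun v => decomp L S v) htr]
    exact Finset.sum_congr rfl fun v _ => by rw [levelRep_invariants_decomp]; rfl
  have h4 : homDim (levelRep M htriv) (Rep.of (lineAct (cycQuot hS.mu))) =
      finrank (ZMod p) (M.dualTwist (cycloChar p)).ρ.invariants := by
    rw [homDim, homSub_lineAct htriv hS.mu]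
    rfl
  rw [← finrank_continuousH1S_dualTwist htriv hS htr, h2, h3, h4] at h1
  unfold unitsDefect
  omega

end FLTAgent.GWEuler
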