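import Fermat.Agent.GWEuler.Defs
import Fermat.Prelude.Def_GroupCohomology_Selmer

/-!
# Restriction of cocycles to a normal subgroup, for modules with a trace

For a module of `Γ ⧸ N` with a trace every equivariant homomorphism on `N` extends to a cocycle,
and a cocycle vanishing on `N` is a coboundary: `H¹` becomes a space of equivariant maps.
-/

set_option autoImplicit false

noncomputable section

open CategoryTheory groupCohomology Module

namespace FLTAgent.GWEuler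

variable {p : ℕ} [Fact p.Prime] {Γ : Type} [Group Γ] {N : Subgroup Γ} [N.Normal]

/-- A module trivial on `N`, as a module of the quotient. -/
def levelRep (V : Rep.{0} (ZMod p) Γ) (hN : ∀ n ∈ N, V.ρ n = 1) : Rep.{0} (ZMod p) (Γ ⧸ N) :=
  Rep.of (X := V) (QuotientGroup.lift N V.ρ fun n hn => MonoidHom.mem_ker.2 (hN n hn))

theorem levelRep_mk (V : Rep.{0} (ZMod p) Γ) (hN : ∀ n ∈ N, V.ρ n = 1) (g : Γ) (v : V) :
    (levelRep V hN).ρ (QuotientGroup.mk g) v = V.ρ g v := rfl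

variable [Finite (Γ ⧸ N)]

/-- The trace at the level of the group itself. -/
theorem exists_trace_out {V : Rep.{0} (ZMod p) Γ} {hN : ∀ n ∈ N, V.ρ n = 1}
    (htr : HasTrace (levelRep V hN)) :
    letI := Fintype.ofFinite (Γ ⧸ N)
    ∃ φ : V →ₗ[ZMod p] V,
      ∀ v : V, ∑ h : Γ ⧸ N, V.ρ (Quotient.out h) (φ (V.ρ (Quotient.out h)⁻¹ v)) = v := by
  let := Fintype.ofFinite (Γ ⧸ N)
  obtain ⟨φ, hφ⟩ := htr
  refine ⟨φ, fun v => ?_⟩
  have h1 : ∀ (g : Γ ⧸ N) (w : V), (levelRep V hN).ρ g w = V.ρ (Quotient.out g) w := fun g w => by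
    conv_lhs => rw [← QuotientGroup.out_eq' g]
    rfl
  refine (Finset.sum_congr rfl fun h _ => ?_).trans (hφ v)
  refine ((congrArg ((levelRep V hN).ρ h) (congrArg φ (?_ : _ = V.ρ (Quotient.out h)⁻¹ v))).trans
    (h1 h _)).symm
  conv_lhs => rw [← QuotientGroup.out_eq' h]
  rfl

/-- An equivariant homomorphism on `N` extends to a cocycle, constant on any normal subgroup on
which it vanishes. -/
theorem exists_cocycle_extension {V : Rep.{0} (ZMod p) Γ} {hN : ∀ n ∈ N, V.ρ n = 1}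
    (htr : HasTrace (levelRep V hN)) (ψ : N → V) (hmul : ∀ a b, ψ (a * b) = ψ a + ψ b)
    (heq : ∀ (g : Γ) (n : N), ψ ⟨g * n * g⁻¹, ‹N.Normal›.conj_mem n n.2 g⟩ = V.ρ g (ψ n)) :
    ∃ c : cocycles₁ V, (∀ n : N, c (n : Γ) = ψ n) ∧
      ∀ U : Subgroup Γ, U.Normal → (∀ n : N, (n : Γ) ∈ U → ψ n = 0) → U ≤ N →
        ∀ g, ∀ u ∈ U, c (g * u) = c g := by
  classical
  let := Fintype.ofFinite (Γ ⧸ N)
  obtain ⟨φ, hφ⟩ := exists_trace_out htr
  let s : Γ ⧸ N → Γ := Quotient.out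
  have hs : ∀ h, (QuotientGroup.mk (s h) : Γ ⧸ N) = h := QuotientGroup.out_eq'
  have hmem : ∀ (h : Γ ⧸ N) (x : Γ),
      (s h)⁻¹ * x * s ((QuotientGroup.mk x)⁻¹ * h) ∈ N := fun h x => by
    rw [← QuotientGroup.eq_one_iff, QuotientGroup.mk_mul, QuotientGroup.mk_mul,
      QuotientGroup.mk_inv, hs, hs, mul_assoc, mul_inv_cancel_left, inv_mul_cancel]
  let ν : Γ ⧸ N → Γ → N := fun h x => ⟨_, hmem h x⟩
  let c : Γ → V := fun x => ∑ h : Γ ⧸ N, V.ρ (s h) (φ (ψ (ν h x)))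
  have hρ : ∀ {g g' : Γ}, g⁻¹ * g' ∈ N → V.ρ g = V.ρ g' := fun {g g'} h => by
    conv_rhs => rw [show g' = g * (g⁻¹ * g') by group, map_mul, hN _ h, mul_one]
  have hc : c ∈ cocycles₁ V := by
    refine (mem_cocycles₁_iff c).2 fun x y => ?_
    have hsplit : ∀ h, ν h (x * y) = ν h x * ν ((QuotientGroup.mk x)⁻¹ * h) y := fun h =>
      Subtype.ext (by
        show _ = (s h)⁻¹ * x * s _ * ((s _)⁻¹ * y * s _)
        show (s h)⁻¹ * (x * y) * s ((QuotientGroup.mk (x * y))⁻¹ * h) = _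
        rw [QuotientGroup.mk_mul, mul_inv_rev, mul_assoc ((QuotientGroup.mk y : Γ ⧸ N)⁻¹)]
        group)
    simp only [c, hsplit, hmul, map_add, Finset.sum_add_distrib, map_sum]
    rw [add_comm]
    congr 1
    refine Fintype.sum_equiv (Equiv.mulLeft ((QuotientGroup.mk x : Γ ⧸ N)⁻¹)) _ _ fun h => ?_
    simp only [Equiv.coe_mulLeft]
    rw [← Module.End.mul_apply (V.ρ x), ← map_mul]
    refine LinearMap.congr_fun (hρ ?_) _
    rw [← mul_assoc]
    exact hmem h x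
  refine ⟨⟨c, hc⟩, fun n => ?_, fun U hU hψ hle g u hu => ?_⟩
  · show c n = ψ n
    conv_rhs => rw [← hφ (ψ n)]
    refine Finset.sum_congr rfl fun h _ => ?_
    rw [← heq (s h)⁻¹ n]
    refine congrArg (fun z => V.ρ (s h) (φ (ψ z))) (Subtype.ext ?_)
    show (s h)⁻¹ * (n : Γ) * s ((QuotientGroup.mk (n : Γ))⁻¹ * h) = (s h)⁻¹ * n * (s h)⁻¹⁻¹
    rw [(QuotientGroup.eq_one_iff _).2 n.2, inv_one, one_mul, inv_inv]
  · show c (g * u) = c g
    have hmk : (QuotientGroup.mk (g * u) : Γ ⧸ N) = QuotientGroup.mk g :=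
      QuotientGroup.mk_mul_of_mem g (hle hu)
    refine Finset.sum_congr rfl fun h _ => ?_
    set t := s ((QuotientGroup.mk g)⁻¹ * h)
    have hu' : t⁻¹ * u * t ∈ U := by simpa using hU.conj_mem u hu t⁻¹
    rw [show ν h (g * u) = ν h g * ⟨t⁻¹ * u * t, hle hu'⟩ from Subtype.ext (by
      show (s h)⁻¹ * (g * u) * s ((QuotientGroup.mk (g * u))⁻¹ * h) =
        (s h)⁻¹ * g * t * (t⁻¹ * u * t)
      rw [hmk, show s ((QuotientGroup.mk g)⁻¹ * h) = t from rfl]; group), hmul,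
        hψ ⟨_, hle hu'⟩ hu', add_zero]

/-- A cocycle vanishing on `N` is a coboundary. -/
theorem h1π_eq_zero_of_vanish {V : Rep.{0} (ZMod p) Γ} {hN : ∀ n ∈ N, V.ρ n = 1}
    (htr : HasTrace (levelRep V hN)) (c : cocycles₁ V) (h0 : ∀ n : N, c (n : Γ) = 0) :
    (H1π V).hom c = 0 := by
  classical
  let := Fintype.ofFinite (Γ ⧸ N)
  obtain ⟨φ, hφ⟩ := exists_trace_out htr
  have hc := (mem_cocycles₁_iff (c : Γ → V)).1 c.2
  have hright : ∀ {g g' : Γ}, g⁻¹ * g' ∈ N → c g = c g' ∧ V.ρ g = V.ρ g' := fun {g g'} h => by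
    have e : g' = g * (g⁻¹ * g') := by group
    constructor
    · conv_rhs => rw [e, hc, h0 ⟨_, h⟩, map_zero, zero_add]
    · conv_rhs => rw [e, map_mul, hN _ h, mul_one]
  let s : Γ ⧸ N → Γ := Quotient.out
  have hs : ∀ h, (QuotientGroup.mk (s h) : Γ ⧸ N) = h := QuotientGroup.out_eq'
  set b : V := ∑ h : Γ ⧸ N, V.ρ (s h) (φ (V.ρ (s h)⁻¹ (c (s h)))) with hb
  have key : ∀ g, V.ρ g b = b - c g := fun g => by
    conv_rhs => arg 2; rw [← hφ (c g)]
    rw [hb, map_sum, ← Finset.sum_sub_distrib]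
    refine Fintype.sum_equiv (Equiv.mulLeft (QuotientGroup.mk g : Γ ⧸ N)) _ _ fun h => ?_
    rw [Equiv.coe_mulLeft, ← map_sub, ← map_sub, ← map_sub]
    set k := (QuotientGroup.mk g : Γ ⧸ N) * h
    have hk : (g * s h)⁻¹ * s k ∈ N := by
      rw [← QuotientGroup.eq_one_iff, QuotientGroup.mk_mul, QuotientGroup.mk_inv,
        QuotientGroup.mk_mul, hs, hs, inv_mul_cancel]
    show V.ρ g (V.ρ (s h) (φ (V.ρ (s h)⁻¹ (c (s h))))) =
      V.ρ (s k) (φ (V.ρ (s k)⁻¹ (c (s k) - c g)))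
    rw [← Module.End.mul_apply (V.ρ g), ← map_mul, (hright hk).2, ← (hright hk).1, hc g (s h),
      add_sub_cancel_right, ← Module.End.mul_apply (V.ρ (s k)⁻¹), ← map_mul,
      (hright (g := (s h)⁻¹) (g' := (s k)⁻¹ * g) ?_).2]
    rw [← QuotientGroup.eq_one_iff, QuotientGroup.mk_mul, QuotientGroup.mk_inv,
      QuotientGroup.mk_inv, QuotientGroup.mk_mul, QuotientGroup.mk_inv, hs, hs, inv_inv]
    simp [k]
  rw [H1π_eq_zero_iff]
  exact ⟨-b, funext fun g => by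
    show V.ρ g (-b) - -b = c g
    rw [map_neg, key g]; abel⟩

end FLTAgent.GWEuler
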