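import Fermat.Agent.GWEuler.GlobalUnits.Finite
import Fermat.Agent.GWEuler.GlobalUnits.CocycleExt
import Fermat.Agent.IdeleClassCohomology.NormCriterion

/-!
# Vanishing of `Ш¹` on modules with a trace

Over an adapted layer a power class split at `S` and unramified outside is trivial, hence
`sha₁` vanishes for a module with a trace (`sha1_eq_bot`).
-/

set_option autoImplicit false

noncomputable section

open CategoryTheory groupCohomology Module ExtCitation

namespace FLTAgent.GWEuler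

open FLTAgent.GalCoh FLTAgent.GlobalDuality FLTAgent.IdeleClassCohomology

variable {p : ℕ} [hp : Fact p.Prime] {L : Layer} {S : Finset Nat.Primes}

/-- Over an adapted layer a power class split at `S` and unramified outside is trivial. -/
theorem mem_powers_of_split (hS : IsAdapted (p := p) L S) (hp2 : p ≠ 2)
    (a : fixedPts L.field.fixingSubgroup GU)
    (ha : haveI := L.finite; a ∈ powerElts p L.field S)
    (hdec : ∀ q ∈ S, ∀ (σ : Gam) (τ : LGal q) (h : σ⁻¹ * loc q τ * σ ∈ L.field.fixingSubgroup),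
      kummer (hasRoots_of_mu hS.mu) a (Additive.ofMul ⟨_, h⟩) = 0) :
    a ∈ powers p L.field := by
  classical
  have := L.finite
  by_contra hne
  set hK := hasRoots_of_mu hS.mu
  obtain ⟨D, hDK, hD⟩ := exists_kummerStep hK hne
  obtain ⟨hdvd, hcard⟩ := D.card_normQuot (Or.inl hp2)
  have hbot : D.bot = L.sub := congrArg IntermediateField.fixingSubgroup hDK
  have hall : ∀ z : D.NormQuot, z = 0 := by
    intro z
    obtain ⟨⟨x, hx⟩, rfl⟩ := D.normQuot_surjective z
    obtain ⟨m, b, hm, hb, hu⟩ := hS.classTrivial x (hbot ▸ hx)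
    have hb' : b ∈ fixedPts D.bot GU := hbot.symm ▸ hb
    have hu' : m • x - principal b ∈ fixedPts D.bot Idele :=
      sub_mem (nsmul_mem hx m) (principal_mem_fixedPts_iff.2 hb')
    obtain ⟨y, hy, hxy⟩ := D.exists_norm_of_forall_local hu' fun q σ => by
      by_cases hq : q ∈ S
      · refine Or.inr (Or.inl ?_)
        rintro ⟨t, ht⟩
        obtain ⟨n, hn, e⟩ := ht.conj_eq
        have hmem : σ⁻¹ * loc q t * σ ∈ L.field.fixingSubgroup := by
          rw [e]
          exact hbot.le (mul_mem D.mem (D.top_le hn))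
        have h2 : D.g * n ∈ D.top := e ▸ (hD ⟨_, hmem⟩).2 (hdec q hq σ t hmem)
        exact D.notMem ((D.top.mul_mem_cancel_right hn).1 h2)
      · obtain ⟨e, he⟩ := exists_norm_eq_of_powerElts ha hq σ
        exact Or.inr (Or.inr ⟨hu q hq σ, fun t ht w hw =>
          CyclicStep.exists_norm_eq_of_kummer hK hDK hD
            (fun hqp => hq (by rw [show q = pPrime p from Subtype.ext hqp]; exact hS.pmem))
            (placeEmb_mem_locField (q := q) (σ := σ) e) he ht hw⟩)
    have h1 : D.normQuot ⟨_, hu'⟩ = 0 := D.normQuot_eq_zero_of_norm hy hxy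
    have h2 : m • D.normQuot ⟨x, hx⟩ = 0 := by
      rw [← map_nsmul, show m • (⟨x, hx⟩ : fixedPts D.bot Idele) =
        ⟨_, hu'⟩ + ⟨principal b, principal_mem_fixedPts_iff.2 hb'⟩ from
          Subtype.ext (sub_add_cancel _ _).symm, map_add, h1, D.normQuot_principal hb', add_zero]
    have hg := addOrderOf_dvd_iff_nsmul_eq_zero.2 h2
    have hg' := addOrderOf_dvd_iff_nsmul_eq_zero.2 (D.nsmul_normQuot_eq_zero (D.normQuot ⟨x, hx⟩))
    rw [← AddMonoid.addOrderOf_eq_one_iff]
    exact Nat.eq_one_of_dvd_coprimes (hp.out.coprime_iff_not_dvd.2 hm) hg' hg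
  have : Subsingleton D.NormQuot := ⟨fun u v => (hall u).trans (hall v).symm⟩
  rw [Nat.card_eq_one_iff_unique.2 ⟨inferInstance, ⟨0⟩⟩] at hdvd
  exact hp.out.not_dvd_one hdvd

/-- `Ш¹` vanishes for a module with a trace over an adapted layer. -/
theorem sha1_eq_bot {M : Rep.{0} (ZMod p) Gam} (htriv : ∀ g ∈ L.sub, M.ρ g = 1)
    (hS : IsAdapted (p := p) L S) (hp2 : p ≠ 2) [FiniteDimensional (ZMod p) M]
    (htr : HasTrace (levelRep M htriv)) : sha₁ S M = ⊥ := by
  classical
  have := L.finite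
  refine (Submodule.eq_bot_iff _).2 fun x hx => ?_
  obtain ⟨hxS, hxl⟩ := hx
  obtain ⟨c, hc, rfl⟩ := (mem_continuousH1S_iff S M x).1 hxS
  refine h1π_eq_zero_of_vanish (hN := htriv) htr c fun n => ?_
  rw [← (Module.forall_dual_apply_eq_zero_iff (ZMod p) _)]
  intro ℓ
  obtain ⟨a, ha, hχ⟩ := exists_powerElts_eq hS.isS hS.mu htriv hc ℓ
  have hpow : a ∈ powers p L.field := mem_powers_of_split hS hp2 a ha fun q hq σ τ h => by
    rw [hχ]
    show ℓ (c (σ⁻¹ * loc q τ * σ)) = 0
    have hcc := (mem_cocycles₁_iff (c : Gam → M)).1 c.2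
    have hτ : loc q τ ∈ L.sub := by
      have := (Layer.sub_normal L).conj_mem _ h σ
      rwa [show σ * (σ⁻¹ * loc q τ * σ) * σ⁻¹ = loc q τ by group] at this
    have h1 : c (σ⁻¹ * loc q τ * σ) = M.ρ σ⁻¹ (c (loc q τ)) := by
      rw [hcc, hcc, map_mul, htriv _ hτ, mul_one, ← add_assoc, add_right_comm]
      have h2 := hcc σ⁻¹ σ
      rw [inv_mul_cancel, cocycles₁_map_one] at h2
      rw [← h2, zero_add]
    suffices h3 : c (loc q τ) = 0 by rw [h1, h3, map_zero, map_zero]
    have h4 : (groupCohomology.map (primeLocalToGlobal q)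
        (𝟙 (Rep.res (primeLocalToGlobal q) M)) 1).hom ((H1π M).hom c) = 0 :=
      congrFun (LinearMap.mem_ker.1 hxl) (Sum.inr ⟨q, hq⟩)
    replace h4 := (H1π_comp_map_apply (primeLocalToGlobal q)
      (𝟙 (Rep.res (primeLocalToGlobal q) M)) c).symm.trans h4
    obtain ⟨z, hz⟩ := (H1π_eq_zero_iff _).1 h4
    have h5 := congrFun hz τ
    rw [show c (loc q τ) = M.ρ (loc q τ) z - z from h5.symm, htriv _ hτ, Module.End.one_apply,
      sub_self]
  have h6 := DFunLike.congr_fun ((kummer_eq_zero_iff (hasRoots_of_mu hS.mu) a).2 hpow)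
    (Additive.ofMul (⟨n, n.2⟩ : L.field.fixingSubgroup))
  rw [hχ] at h6
  exact h6

end FLTAgent.GWEuler
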