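import Fermat.Agent.GWEuler.Additive
import Mathlib.Algebra.Group.Action.Sigma

/-!
# Equivariant maps out of a module with a trace

For a module `M` of a finite group with a trace, `X ↦ dim Hom_G(M, X)` is additive
(`isAdditive_homDim`), and its values at permutation modules are dimensions of invariants
(`homDim_permRep`).
-/

set_option autoImplicit false

noncomputable section

open CategoryTheory Module

namespace FLTAgent.GWEuler

variable {p : ℕ} [Fact p.Prime] {G : Type} [Group G] [Finite G] (M : Rep.{0} (ZMod p) G)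

/-- The equivariant linear maps. -/
def homSub (X : Rep.{0} (ZMod p) G) : Submodule (ZMod p) (M →ₗ[ZMod p] X) where
  carrier := {h | ∀ g m, h (M.ρ g m) = X.ρ g (h m)}
  add_mem' {a b} ha hb g m := by simp [ha g m, hb g m]
  zero_mem' g m := by simp
  smul_mem' c a ha g m := by simp [ha g m]

/-- The dimension of the equivariant maps. -/
def homDim (X : Rep.{0} (ZMod p) G) : ℤ := finrank (ZMod p) (homSub M X)

/-- An equivariant lift along a surjection. -/
theorem exists_homSub_lift (htr : HasTrace M) {B C : Rep.{0} (ZMod p) G} (π : B →ₗ[ZMod p] C)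
    (hπ : ∀ (g : G) (b : B), π (B.ρ g b) = C.ρ g (π b)) (hs : Function.Surjective π)
    (h : homSub M C) : ∃ h' : homSub M B, π ∘ₗ h'.1 = h.1 := by
  let := Fintype.ofFinite G
  obtain ⟨φ, hφ⟩ := htr
  obtain ⟨σ, hσ⟩ := π.exists_rightInverse_of_surjective (LinearMap.range_eq_top.2 hs)
  refine ⟨⟨∑ g : G, B.ρ g ∘ₗ σ ∘ₗ h.1 ∘ₗ φ ∘ₗ M.ρ g⁻¹, fun k m => ?_⟩, ?_⟩
  · simp only [LinearMap.sum_apply, LinearMap.comp_apply, map_sum]
    refine Fintype.sum_equiv (Equiv.mulLeft k⁻¹) _ _ fun g => ?_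
    simp only [Equiv.coe_mulLeft]
    rw [← Module.End.mul_apply (M.ρ g⁻¹), ← map_mul, ← Module.End.mul_apply (B.ρ k), ← map_mul,
      mul_inv_cancel_left, mul_inv_rev, inv_inv]
  · refine LinearMap.ext fun m => ?_
    have h1 : ∀ c, π (σ c) = c := fun c => LinearMap.congr_fun hσ c
    simp only [LinearMap.comp_apply, LinearMap.sum_apply, map_sum, hπ, h1]
    conv_rhs => rw [← hφ m, map_sum]
    exact Finset.sum_congr rfl fun g _ => (h.2 g _).symm

/-- Equivariant maps out of a module with a trace are additive. -/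
theorem isAdditive_homDim [FiniteDimensional (ZMod p) M] (htr : HasTrace M) :
    IsAdditive (homDim M) := by
  intro A B C _ _ _ ι π hι hπ hinj hsurj hex
  let f : homSub M A →ₗ[ZMod p] homSub M B :=
    { toFun := fun h => ⟨ι ∘ₗ h.1, fun g m => by
        show ι (h.1 (M.ρ g m)) = _
        rw [h.2 g m, hι]; rfl⟩
      map_add' := fun a b => Subtype.ext (LinearMap.comp_add _ _ _)
      map_smul' := fun c a => Subtype.ext (LinearMap.comp_smul _ _ _) }
  let g : homSub M B →ₗ[ZMod p] homSub M C :=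
    { toFun := fun h => ⟨π ∘ₗ h.1, fun g m => by
        show π (h.1 (M.ρ g m)) = _
        rw [h.2 g m, hπ]; rfl⟩
      map_add' := fun a b => Subtype.ext (LinearMap.comp_add _ _ _)
      map_smul' := fun c a => Subtype.ext (LinearMap.comp_smul _ _ _) }
  have hf : Function.Injective f := fun a b h => Subtype.ext (LinearMap.ext fun m =>
    hinj (LinearMap.congr_fun (congrArg Subtype.val h) m))
  have hg : Function.Surjective g := fun h => by
    obtain ⟨h', e⟩ := exists_homSub_lift M htr π hπ hsurj h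
    exact ⟨h', Subtype.ext e⟩
  have hker : LinearMap.ker g = LinearMap.range f := by
    ext h
    refine ⟨fun hh => ?_, ?_⟩
    · have h0 : ∀ m, h.1 m ∈ LinearMap.range ι := fun m =>
        (hex _).1 (LinearMap.congr_fun (congrArg Subtype.val (LinearMap.mem_ker.1 hh)) m)
      let k : M →ₗ[ZMod p] A :=
        (LinearEquiv.ofInjective ι hinj).symm.toLinearMap ∘ₗ h.1.codRestrict _ h0
      have hk : ∀ m, ι (k m) = h.1 m := fun m =>
        congrArg Subtype.val ((LinearEquiv.ofInjective ι hinj).apply_symm_apply ⟨h.1 m, h0 m⟩)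
      exact ⟨⟨k, fun a m => hinj (by rw [hk, hι, hk, h.2 a m])⟩,
        Subtype.ext (LinearMap.ext hk)⟩
    · rintro ⟨a, rfl⟩
      exact LinearMap.mem_ker.2 (Subtype.ext (LinearMap.ext fun m => (hex _).2 ⟨a.1 m, rfl⟩))
  have h1 := g.finrank_range_add_finrank_ker
  rw [LinearMap.range_eq_top.2 hg, finrank_top, hker, LinearMap.finrank_range_of_inj hf] at h1
  simp only [homDim]
  omega

variable {M}

/-- In a module with a trace the invariants of a subgroup are the norms. -/
theorem range_sum_eq_invariants {V : Type} [AddCommGroup V] [Module (ZMod p) V]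
    (ρ : Representation (ZMod p) G V) [Fintype G] {φ : V →ₗ[ZMod p] V}
    (hφ : ∀ v, ∑ g : G, ρ g (φ (ρ g⁻¹ v)) = v) (D : Subgroup G) [Fintype D] :
    LinearMap.range (∑ d : D, ρ d) = Representation.invariants (ρ.comp D.subtype) := by
  classical
  refine le_antisymm ?_ fun v hv => ?_
  · rintro _ ⟨w, rfl⟩ d
    show ρ d ((∑ e : D, ρ e) w) = _
    simp only [LinearMap.sum_apply, map_sum]
    refine Fintype.sum_equiv (Equiv.mulLeft d) _ _ fun e => ?_
    rw [Equiv.coe_mulLeft, ← Module.End.mul_apply, ← map_mul]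
    rfl
  · let := Fintype.ofFinite (G ⧸ D)
    refine ⟨∑ q : G ⧸ D, ρ (Quotient.out q)⁻¹ (φ (ρ (Quotient.out q) v)), ?_⟩
    conv_rhs => rw [← hφ v]
    simp only [LinearMap.sum_apply, map_sum]
    rw [← Finset.sum_product', Finset.univ_product_univ]
    refine Fintype.sum_bijective (M := V) (fun x : (G ⧸ D) × D => (x.2 : G) * (Quotient.out x.1)⁻¹)
      ⟨fun x y h => ?_, fun g => ?_⟩ _ _ fun x => ?_
    · have h' := congrArg (fun z : G => (QuotientGroup.mk z⁻¹ : G ⧸ D)) h
      simp only [mul_inv_rev, inv_inv, QuotientGroup.mk_mul_of_mem _ (inv_mem (SetLike.coe_mem _)),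
        QuotientGroup.out_eq'] at h'
      refine Prod.ext h' (Subtype.ext ?_)
      simpa [h'] using h
    · obtain ⟨d, hd⟩ := QuotientGroup.mk_out_eq_mul D g⁻¹
      exact ⟨(QuotientGroup.mk g⁻¹, d), by simp [hd]⟩
    · have hd : ρ (x.2 : G)⁻¹ v = v := hv x.2⁻¹
      rw [mul_inv_rev, inv_inv, map_mul, map_mul, Module.End.mul_apply, Module.End.mul_apply, hd]

/-- The functionals fixed by a subgroup. -/
def dualFix (M : Rep.{0} (ZMod p) G) (D : Subgroup G) :
    Submodule (ZMod p) (Dual (ZMod p) M) :=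
  Representation.invariants (M.ρ.dual.comp D.subtype)

omit [Finite G] in
theorem apply_of_mem_dualFix {D : Subgroup G} {ψ : Dual (ZMod p) M} (h : ψ ∈ dualFix M D)
    {d : G} (hd : d ∈ D) (m : M) : ψ (M.ρ d m) = ψ m := by
  have h1 := LinearMap.congr_fun (h ⟨d, hd⟩) (M.ρ d m)
  have h2 : M.ρ d⁻¹ (M.ρ d m) = m := by
    rw [← Module.End.mul_apply, ← map_mul, inv_mul_cancel, map_one, Module.End.one_apply]
  change ψ (M.ρ d⁻¹ (M.ρ d m)) = ψ (M.ρ d m) at h1
  rw [h2] at h1
  exact h1.symm

omit [Finite G] in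
theorem mem_dualFix {D : Subgroup G} {ψ : Dual (ZMod p) M}
    (h : ∀ d ∈ D, ∀ m, ψ (M.ρ d m) = ψ m) : ψ ∈ dualFix M D :=
  fun d => LinearMap.ext fun m => h _ (inv_mem d.2) m

theorem finrank_dualFix [FiniteDimensional (ZMod p) M] (htr : HasTrace M) (D : Subgroup G) :
    finrank (ZMod p) (dualFix M D) =
      finrank (ZMod p) (Representation.invariants (M.ρ.comp D.subtype)) := by
  let := Fintype.ofFinite G
  let := Fintype.ofFinite D
  obtain ⟨φ, hφ⟩ := htr
  have hdual : ∀ ψ : Dual (ZMod p) M,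
      ∑ g : G, M.ρ.dual g (φ.dualMap (M.ρ.dual g⁻¹ ψ)) = ψ := fun ψ => LinearMap.ext fun m => by
    simp only [Representation.dual_apply, inv_inv, LinearMap.sum_apply]
    show ∑ g : G, ψ (M.ρ g (φ (M.ρ g⁻¹ m))) = ψ m
    rw [← map_sum, hφ]
  rw [dualFix, ← range_sum_eq_invariants M.ρ.dual hdual D, ← range_sum_eq_invariants M.ρ hφ D,
    ← LinearMap.finrank_range_dualMap_eq_finrank_range (∑ d : D, (M.ρ d : M →ₗ[ZMod p] M))]
  rw [show (∑ d : D, M.ρ.dual d) = (∑ d : D, (M.ρ d : M →ₗ[ZMod p] M)).dualMap from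
    LinearMap.ext fun ψ => LinearMap.ext fun m => by
      simp only [LinearMap.sum_apply, LinearMap.dualMap_apply, map_sum]
      exact Fintype.sum_equiv (Equiv.inv D) _ _ fun d => rfl]

variable (p G) in
/-- The action on functions on a `G`-set. -/
def permAct (Y : Type) [MulAction G Y] : Representation (ZMod p) G (Y → ZMod p) where
  toFun g := LinearMap.funLeft (ZMod p) (ZMod p) fun y : Y => g⁻¹ • y
  map_one' := LinearMap.ext fun f => funext fun y => by
    show f ((1 : G)⁻¹ • y) = f y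
    rw [inv_one, one_smul]
  map_mul' g h := LinearMap.ext fun f => funext fun y => by
    show f ((g * h)⁻¹ • y) = f (h⁻¹ • g⁻¹ • y)
    rw [mul_inv_rev, mul_smul]

variable (p G) in
/-- Functions on a `G`-set. -/
abbrev permRep (Y : Type) [MulAction G Y] : Rep.{0} (ZMod p) G := Rep.of (permAct p G Y)

omit [Finite G] in
theorem permRep_apply (Y : Type) [MulAction G Y] (g : G) (f : Y → ZMod p) (y : Y) :
    (permRep p G Y).ρ g f y = f (g⁻¹ • y) := rfl

/-- Maps into the functions on orbits. -/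
theorem homDim_permRep {ι : Type} [Fintype ι] (D : ι → Subgroup G) [FiniteDimensional (ZMod p) M]
    (htr : HasTrace M) :
    homDim M (permRep p G (Σ v, G ⧸ D v)) =
      ∑ v, (finrank (ZMod p) (Representation.invariants (M.ρ.comp (D v).subtype)) : ℤ) := by
  classical
  let F : homSub M (permRep p G (Σ v, G ⧸ D v)) →ₗ[ZMod p] ∀ v, dualFix M (D v) :=
    { toFun := fun h v => ⟨LinearMap.proj (⟨v, QuotientGroup.mk 1⟩ : Σ v, G ⧸ D v) ∘ₗ h.1,
        mem_dualFix fun d hd m => by
          show h.1 (M.ρ d m) _ = h.1 m _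
          rw [h.2 d m, permRep_apply]
          refine congrArg (h.1 m) (Sigma.ext rfl (heq_of_eq ?_))
          exact QuotientGroup.eq.2 (by simpa using hd)⟩
      map_add' := fun a b => rfl
      map_smul' := fun c a => rfl }
  have hinj : Function.Injective F := fun a b h => Subtype.ext (LinearMap.ext fun m => funext
    fun y => by
      obtain ⟨v, c⟩ := y
      obtain ⟨g, rfl⟩ := QuotientGroup.mk_surjective c
      have h1 : a.1 (M.ρ g⁻¹ m) ⟨v, QuotientGroup.mk 1⟩ = b.1 (M.ρ g⁻¹ m) ⟨v, QuotientGroup.mk 1⟩ :=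
        LinearMap.congr_fun (congrArg Subtype.val (congrFun h v)) _
      rw [a.2, b.2, permRep_apply, permRep_apply] at h1
      simpa using h1)
  have hsurj : Function.Surjective F := fun ψ => by
    have hwd : ∀ (v : ι) (m : M) (g g' : G), (QuotientGroup.mk g : G ⧸ D v) = QuotientGroup.mk g' →
        (ψ v).1 (M.ρ g⁻¹ m) = (ψ v).1 (M.ρ g'⁻¹ m) := fun v m g g' e => by
      rw [show g⁻¹ = g⁻¹ * g' * g'⁻¹ by group, map_mul, Module.End.mul_apply]
      exact apply_of_mem_dualFix (ψ v).2 (QuotientGroup.eq.1 e) _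
    refine ⟨⟨LinearMap.pi fun y => (ψ y.1).1 ∘ₗ M.ρ (Quotient.out y.2)⁻¹, fun g m => ?_⟩, ?_⟩
    · funext y
      rw [permRep_apply, LinearMap.pi_apply, LinearMap.pi_apply, LinearMap.comp_apply,
        LinearMap.comp_apply, ← Module.End.mul_apply (M.ρ _⁻¹), ← map_mul]
      obtain ⟨v, c⟩ := y
      rw [Sigma.smul_mk]
      refine Eq.trans ?_ (hwd v m (g⁻¹ * Quotient.out c) _ ?_)
      · rw [mul_inv_rev, inv_inv]
      · rw [QuotientGroup.out_eq']
        conv_rhs => rw [← QuotientGroup.out_eq' c]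
        rfl
    · refine funext fun v => Subtype.ext (LinearMap.ext fun m => ?_)
      show (ψ v).1 (M.ρ (Quotient.out (QuotientGroup.mk 1 : G ⧸ D v))⁻¹ m) = _
      rw [hwd v m _ 1 (QuotientGroup.out_eq' _), inv_one, map_one, Module.End.one_apply]
  have : ∀ v, Module.Free (ZMod p) (dualFix M (D v)) := fun v => Module.Free.of_divisionRing _ _
  rw [homDim, (LinearEquiv.ofBijective F ⟨hinj, hsurj⟩).finrank_eq, Module.finrank_pi_fintype,
    Nat.cast_sum]
  exact Finset.sum_congr rfl fun v _ => by rw [finrank_dualFix htr]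

end FLTAgent.GWEuler
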