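import Fermat.Agent.GWEuler.GlobalUnits.CocycleExt
import Fermat.Agent.GWEuler.GlobalUnits.Finite
import Fermat.Agent.GWEuler.GlobalUnits.UnitsClass

/-!
# `H¹` of a dual twist as maps into units

`finrank_continuousH1S_dualTwist`: over an adapted layer `H¹_S(M')` is the space of equivariant
maps from `M` into the units outside `S` modulo `p`, for a module with a trace.
-/

set_option autoImplicit false

noncomputable section

open CategoryTheory groupCohomology Module ExtCitation

namespace FLTAgent.GWEuler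

open FLTAgent.GalCoh FLTAgent.GlobalDuality FLTAgent.IdeleClassCohomology

variable {p : ℕ} [hp : Fact p.Prime] {L : Layer} {S : Finset Nat.Primes}
  (hmu : ∀ g ∈ L.sub, cycloChar p g = 1) {M : Rep.{0} (ZMod p) Gam}
  (htriv : ∀ g ∈ L.sub, M.ρ g = 1)

include hmu htriv in
theorem dualTwist_eq_one : ∀ g ∈ L.sub, (M.dualTwist (cycloChar p)).ρ g = 1 := fun g hg => by
  refine LinearMap.ext fun f => LinearMap.ext fun m => ?_
  show (cycloChar p g : ZMod p) * (show Dual (ZMod p) M from f) (M.ρ g⁻¹ m) = _
  rw [hmu g hg, htriv _ (inv_mem hg), Units.val_one, one_mul]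
  rfl

include hmu htriv in
theorem hasTrace_levelRep_dualTwist (htr : HasTrace (levelRep M htriv)) :
    HasTrace (levelRep (M.dualTwist (cycloChar p)) (dualTwist_eq_one hmu htriv)) := by
  let := Fintype.ofFinite (Gam ⧸ L.sub)
  obtain ⟨φ, hφ⟩ := htr
  refine ⟨φ.dualMap, fun f => LinearMap.ext fun m => ?_⟩
  refine ((LinearMap.sum_apply (R₂ := ZMod p) _ _ _).trans
    (Finset.sum_congr rfl fun c _ => ?_)).trans
    ((map_sum (show Dual (ZMod p) M from f) _ _).symm.trans (congrArg _ (hφ m)))
  induction c using QuotientGroup.induction_on with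
  | _ g =>
    show (cycloChar p g : ZMod p) * ((cycloChar p g⁻¹ : ZMod p) *
      (show Dual (ZMod p) M from f) (M.ρ g⁻¹⁻¹ (φ (M.ρ g⁻¹ m)))) = _
    rw [inv_inv, map_inv, ← mul_assoc, Units.mul_inv, one_mul]
    rfl

variable (M) in
/-- Evaluation of the dual twist at an element. -/
def evalAt (m : M) : M.dualTwist (cycloChar p) →ₗ[ZMod p] ZMod p :=
  LinearMap.applyₗ (R := ZMod p) (M := M) (M₂ := ZMod p) m

theorem evalAt_rho (g : Gam) (m : M) (f : M.dualTwist (cycloChar p)) :
    evalAt M m ((M.dualTwist (cycloChar p)).ρ g f) =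
      (cycloChar p g : ZMod p) * evalAt M (M.ρ g⁻¹ m) f := rfl

theorem evalAt_add (a b : M) (f : M.dualTwist (cycloChar p)) :
    evalAt M (a + b) f = evalAt M a f + evalAt M b f :=
  map_add (show Dual (ZMod p) M from f) a b

theorem evalAt_smul (r : ZMod p) (a : M) (f : M.dualTwist (cycloChar p)) :
    evalAt M (r • a) f = r * evalAt M a f :=
  map_smul (show Dual (ZMod p) M from f) r a

theorem dualTwist_eval_ext {f g : M.dualTwist (cycloChar p)}
    (h : ∀ m, evalAt M m f = evalAt M m g) : f = g :=
  LinearMap.ext h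

variable (L S) in
/-- Kummer characters of the units outside `S`, modulo `p`. -/
def unitKummer (hK : HasRoots p L.field) :
    ModP (layerUnits L S) p →ₗ[ZMod p] (Additive L.field.fixingSubgroup →+ ZMod p) :=
  AddMonoidHom.toZModLinearMap p (QuotientAddGroup.lift _
    ((kummer hK).comp (layerUnits L S).subtype)
    (by
      rintro _ ⟨b, rfl⟩
      exact (kummer_eq_zero_iff hK _).2 ⟨b.1, rfl⟩))

theorem unitKummer_mk (hK : HasRoots p L.field) (u : layerUnits L S) :
    unitKummer L S hK (QuotientAddGroup.mk u) = kummer hK u.1 := rfl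

theorem unitKummer_injective (hK : HasRoots p L.field) :
    Function.Injective (unitKummer L S hK) := by
  refine (injective_iff_map_eq_zero _).2 fun x hx => ?_
  induction x using QuotientAddGroup.induction_on with
  | H u =>
    obtain ⟨b, hb⟩ := (kummer_eq_zero_iff hK u.1).1 hx
    replace hb : p • b = u.1 := hb
    have hbU : b ∈ layerUnits L S := fun q hq σ => mem_unitsAt_of_nsmul hp.out.ne_zero (by
      rw [← at_nsmul, ← map_nsmul, ← AddSubgroup.coe_nsmul, hb]
      exact u.2 q hq σ)
    exact (QuotientAddGroup.eq_zero_iff _).2 ⟨⟨b, hbU⟩, Subtype.ext hb⟩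

include hmu in
/-- Kummer characters of conjugates. -/
theorem kummer_smul_conj (g : Gam) (a : fixedPts L.sub GU) (n : L.sub) :
    kummer (p := p) (hasRoots_of_mu hmu) ((QuotientGroup.mk g : Gam ⧸ L.sub) • a)
        (Additive.ofMul (⟨g * n * g⁻¹, (Layer.sub_normal L).conj_mem n n.2 g⟩ :
          L.field.fixingSubgroup)) =
      (cycloChar p g : ZMod p) * kummer (hasRoots_of_mu hmu) a
        (Additive.ofMul (⟨n, n.2⟩ : L.field.fixingSubgroup)) := by
  set hK := hasRoots_of_mu hmu
  refine torsionHom_injective p ?_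
  rw [torsionHom_kummer, ← smul_torsionHom, torsionHom_kummer, smul_sub]
  show (g * n * g⁻¹) • root p (g • a.1) - root p (g • a.1) = _
  have hd : p • (root p (g • a.1) - g • root p a.1) = 0 := by
    rw [nsmul_sub, nsmul_root, ← smul_comm g p, nsmul_root, sub_self]
  have h1 := hK.smul_torsion (g := g * n * g⁻¹) ((Layer.sub_normal L).conj_mem n n.2 g) hd
  rw [smul_sub, ← mul_smul (g * (n : Gam) * g⁻¹) g, inv_mul_cancel_right, mul_smul g (n : Gam),
    sub_eq_sub_iff_sub_eq_sub] at h1
  exact h1

theorem finrank_range_eq_of_ker_eq {R A B C : Type} [Semiring R] [AddCommMonoid A] [Module R A]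
    [AddCommMonoid B] [Module R B] [AddCommMonoid C] [Module R C] (f : A →ₗ[R] B) (g : A →ₗ[R] C)
    (h : ∀ a b, g a = g b ↔ f a = f b) (hg : Function.Surjective g) :
    finrank R (LinearMap.range f) = finrank R C := by
  let e : C →ₗ[R] LinearMap.range f :=
    { toFun := fun c => f.rangeRestrict (Function.surjInv hg c)
      map_add' := fun x y => Subtype.ext (((h _ _).1 (by
        rw [map_add, Function.surjInv_eq hg, Function.surjInv_eq hg, Function.surjInv_eq hg])).trans
          (map_add f _ _))
      map_smul' := fun r x => Subtype.ext (((h _ _).1 (by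
        rw [map_smul, Function.surjInv_eq hg, Function.surjInv_eq hg])).trans (map_smul f r _)) }
  refine (LinearEquiv.ofBijective e ⟨fun x y hxy => ?_, fun y => ?_⟩).finrank_eq.symm
  · have h1 : f (Function.surjInv hg x) = f (Function.surjInv hg y) := congrArg Subtype.val hxy
    rwa [← h, Function.surjInv_eq hg, Function.surjInv_eq hg] at h1
  · obtain ⟨a, ha⟩ := y.2
    exact ⟨g a, Subtype.ext (((h _ _).1 (Function.surjInv_eq hg (g a))).trans ha)⟩

variable (hS : IsAdapted (p := p) L S)

/-- The equivariant map attached to a cocycle of the dual twist. -/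
theorem exists_hom_of_cocycle (c : levelCocyclesS₁ S (M.dualTwist (cycloChar p))) :
    ∃ h : homSub (levelRep M htriv) (redMod p (Gam ⧸ L.sub) (layerUnits L S)),
      ∀ (m : M) (n : L.field.fixingSubgroup),
        unitKummer L S (hasRoots_of_mu hS.mu) (h.1 m) (Additive.ofMul n) =
          evalAt M m (c.1 (n : Gam)) := by
  classical
  have := L.finite
  let V : Rep.{0} (ZMod p) Gam := M.dualTwist (cycloChar p)
  have hV := dualTwist_eq_one hS.mu htriv
  set hK := hasRoots_of_mu hS.mu
  obtain ⟨R, hR, hcov, -⟩ := exists_places L.field S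
  have hex : ∀ m : M, ∃ x : ModP (layerUnits L S) p, ∀ n : L.field.fixingSubgroup,
      unitKummer L S hK x (Additive.ofMul n) = evalAt M m (c.1 (n : Gam)) := by
    intro m
    obtain ⟨a, ha, hχ⟩ := exists_powerElts_eq hS.isS hS.mu hV (c := c.1) c.2
      (evalAt M m)
    obtain ⟨b, hb, e⟩ := hS.powerClasses_le hcov ⟨a, ha, rfl⟩
    obtain ⟨z, hz, e'⟩ := (QuotientAddGroup.mk'_eq_mk' _).1 e
    refine ⟨QuotientAddGroup.mk ⟨b, by rw [layerUnits_eq_placeUnits L S hcov]; exact hb⟩,
      fun n => ?_⟩
    rw [unitKummer_mk]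
    have h1 : kummer hK b = kummer hK a := by
      rw [← e', map_add, (kummer_eq_zero_iff hK z).2 hz, add_zero]
    show kummer hK b _ = _
    rw [h1, hχ]
    rfl
  choose f hf using hex
  have hlin : ∀ {x y : ModP (layerUnits L S) p}, (∀ n : L.field.fixingSubgroup,
      unitKummer L S hK x (Additive.ofMul n) = unitKummer L S hK y (Additive.ofMul n)) → x = y :=
    fun h => unitKummer_injective hK (AddMonoidHom.ext fun n => h n.toMul)
  let fl : M →ₗ[ZMod p] ModP (layerUnits L S) p :=
    { toFun := f
      map_add' := fun a b => hlin fun n => by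
        rw [map_add, AddMonoidHom.add_apply, hf, hf, hf, evalAt_add]
      map_smul' := fun r a => hlin fun n => by
        rw [map_smul, RingHom.id_apply]
        show _ = r • unitKummer L S hK (f a) (Additive.ofMul n)
        rw [hf, hf, evalAt_smul, smul_eq_mul] }
  refine ⟨⟨fl, fun g m => hlin fun n => ?_⟩, fun m n => hf m n⟩
  · induction g using QuotientGroup.induction_on with
    | _ g =>
      obtain ⟨n', hn'⟩ : ∃ n' : L.sub, (⟨g * n' * g⁻¹, (Layer.sub_normal L).conj_mem n' n'.2 g⟩ :
          L.field.fixingSubgroup) = n :=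
        ⟨⟨g⁻¹ * n * g, by simpa using (Layer.sub_normal L).conj_mem _ n.2 g⁻¹⟩,
          Subtype.ext (by simp [mul_assoc])⟩
      subst hn'
      have hcn : c.1 (g * n' * g⁻¹) = V.ρ g (c.1 n') := by
        have hc := (mem_cocycles₁_iff (c.1 : Gam → V)).1 c.1.2
        rw [hc, hc, map_mul, hV _ n'.2, mul_one, ← add_assoc, add_right_comm,
          cocycles₁_map_inv c.1 g, neg_add_cancel, zero_add]
      show unitKummer L S hK (f ((levelRep M htriv).ρ (QuotientGroup.mk g) m)) _ = _
      rw [levelRep_mk, hf]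
      obtain ⟨u, hu⟩ := QuotientAddGroup.mk_surjective (f m)
      show evalAt M (M.ρ g m) (c.1 (g * n' * g⁻¹)) =
        unitKummer L S hK ((redMod p (Gam ⧸ L.sub) (layerUnits L S)).ρ (QuotientGroup.mk g) (f m)) _
      rw [← hu]
      show _ = kummer hK ((QuotientGroup.mk g : Gam ⧸ L.sub) • u.1) _
      rw [kummer_smul_conj hS.mu g u.1 n', hcn]
      rw [evalAt_rho, ← Module.End.mul_apply, ← map_mul, inv_mul_cancel, map_one,
        Module.End.one_apply,
        ← hf m ⟨n', n'.2⟩, ← hu]
      rfl

include hS in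
/-- `dim H¹_S(M')` is the dimension of the equivariant maps into the units modulo `p`. -/
theorem finrank_continuousH1S_dualTwist [FiniteDimensional (ZMod p) M]
    (htr : HasTrace (levelRep M htriv)) :
    (finrank (ZMod p) (continuousH1S S (M.dualTwist (cycloChar p))) : ℤ) =
      homDim (levelRep M htriv) (redMod p (Gam ⧸ L.sub) (layerUnits L S)) := by
  classical
  have := L.finite
  let V : Rep.{0} (ZMod p) Gam := M.dualTwist (cycloChar p)
  have hV := dualTwist_eq_one hS.mu htriv
  set hK := hasRoots_of_mu hS.mu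
  choose Φ hΦ using exists_hom_of_cocycle htriv hS
  have hext : ∀ {h h' : homSub (levelRep M htriv) (redMod p (Gam ⧸ L.sub) (layerUnits L S))},
      (∀ (m : M) (n : L.field.fixingSubgroup), unitKummer L S hK (h.1 m) (Additive.ofMul n) =
        unitKummer L S hK (h'.1 m) (Additive.ofMul n)) → h = h' := fun h => Subtype.ext
    (LinearMap.ext fun m => unitKummer_injective hK (AddMonoidHom.ext fun n => h m n.toMul))
  let Φ' : levelCocyclesS₁ S V →ₗ[ZMod p]
      homSub (levelRep M htriv) (redMod p (Gam ⧸ L.sub) (layerUnits L S)) :=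
    { toFun := Φ
      map_add' := fun a b => hext fun m n => by
        show _ = unitKummer L S hK ((Φ a).1 m + (Φ b).1 m) (Additive.ofMul n)
        exact (hΦ (a + b) m n).trans (((map_add (evalAt M m) _ _).trans
          (congrArg₂ (· + ·) (hΦ a m n).symm (hΦ b m n).symm)).trans
            (DFunLike.congr_fun (map_add (unitKummer L S hK) _ _) _).symm)
      map_smul' := fun r a => hext fun m n => by
        show _ = unitKummer L S hK (r • (Φ a).1 m) (Additive.ofMul n)
        exact (hΦ _ m n).trans (((map_smul (evalAt M m) r _).trans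
          (congrArg (r • ·) (hΦ a m n).symm)).trans
            (DFunLike.congr_fun (map_smul (unitKummer L S hK) r _) _).symm) }
  let π : levelCocyclesS₁ S V →ₗ[ZMod p] H1 V := (H1π V).hom ∘ₗ (levelCocyclesS₁ S V).subtype
  have hiff : ∀ a b, Φ' a = Φ' b ↔ π a = π b := fun a b => by
    have hd : π a = π b ↔ (H1π V).hom (a.1 - b.1) = 0 := by
      exact sub_eq_zero.symm.trans (Eq.congr_left (map_sub (H1π V).hom a.1 b.1).symm)
    rw [hd]
    have hsub : ∀ g, (a.1 - b.1 : cocycles₁ V) g = a.1 g - b.1 g := fun _ => rfl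
    constructor
    · intro h
      refine h1π_eq_zero_of_vanish (hN := hV) (hasTrace_levelRep_dualTwist hS.mu htriv htr)
        _ fun n => ?_
      rw [hsub, sub_eq_zero]
      refine dualTwist_eval_ext fun m => ?_
      refine (hΦ a m ⟨n, n.2⟩).symm.trans ?_
      rw [show Φ a = Φ b from h]
      exact hΦ b m ⟨n, n.2⟩
    · intro h
      refine hext fun m n => ?_
      show unitKummer L S hK ((Φ a).1 m) _ = unitKummer L S hK ((Φ b).1 m) _
      refine (hΦ a m n).trans (Eq.trans (congrArg _ ?_) (hΦ b m n).symm)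
      obtain ⟨z, hz⟩ := (H1π_eq_zero_iff _).1 h
      refine sub_eq_zero.1 ?_
      rw [← hsub, show (a.1 - b.1 : cocycles₁ V) (n : Gam) = V.ρ (n : Gam) z - z from
        (congrFun hz (n : Gam)).symm, hV _ n.2, Module.End.one_apply, sub_self]
  have hsurj : Function.Surjective Φ' := by
    intro h
    have : Finite M := Module.finite_of_finite (ZMod p)
    choose u hu using fun m : M => QuotientAddGroup.mk_surjective (h.1 m)
    have := Fintype.ofFinite M
    obtain ⟨L', hle, hL', hroot⟩ := exists_rootLayer hS.isS hp.out.ne_zero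
      (fun q hq hqp => hq (by
        rw [show q = pPrime p from Subtype.ext ((Nat.prime_dvd_prime_iff_eq q.2 hp.out).1 hqp)]
        exact hS.pmem))
      (Finset.univ.image fun m => (u m).1.1.val)
      (by
        intro b hb
        obtain ⟨m, -, rfl⟩ := Finset.mem_image.1 hb
        exact val_mem_of_fixed L.field (u m).1.2)
      (by
        intro b hb q hq δ
        obtain ⟨m, -, rfl⟩ := Finset.mem_image.1 hb
        refine ⟨1, one_mem _, ?_⟩
        rw [map_one, map_one, norm_one, one_pow]
        exact ((mem_layerUnits_iff L S).1 (u m).2 q hq δ).symm)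
    let ψ : L.sub → V := fun n =>
      ((AddMonoidHom.eval (N := ZMod p)
        (Additive.ofMul (⟨n, n.2⟩ : L.field.fixingSubgroup))).toZModLinearMap p
        ∘ₗ unitKummer L S hK ∘ₗ h.1 : M →ₗ[ZMod p] ZMod p)
    obtain ⟨c, hc, hlev⟩ := exists_cocycle_extension (hN := hV)
      (hasTrace_levelRep_dualTwist hS.mu htriv htr)
      ψ (fun a b => LinearMap.ext fun m =>
        map_add (unitKummer L S hK (h.1 m)) (Additive.ofMul ⟨a, a.2⟩) (Additive.ofMul ⟨b, b.2⟩))
      fun g n => LinearMap.ext fun m => by
        obtain ⟨v, hv⟩ := QuotientAddGroup.mk_surjective (h.1 (M.ρ g⁻¹ m))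
        have h2 := h.2 (QuotientGroup.mk g) (M.ρ g⁻¹ m)
        rw [levelRep_mk, ← Module.End.mul_apply, ← map_mul, mul_inv_cancel, map_one,
          Module.End.one_apply, ← hv] at h2
        show unitKummer L S hK (h.1 m) _ =
          (cycloChar p g : ZMod p) * unitKummer L S hK (h.1 (M.ρ g⁻¹ m)) _
        rw [h2, ← hv]
        show kummer hK ((QuotientGroup.mk g : Gam ⧸ L.sub) • v.1) _ = _
        rw [kummer_smul_conj hS.mu g v.1 n]
        rfl
    refine ⟨⟨c, ⟨L'.field, hL', fun g s hs => ?_⟩⟩, hext fun m n => ?_⟩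
    · refine hlev L'.sub (Layer.sub_normal L') (fun n hn => LinearMap.ext fun m => ?_)
        (Layer.sub_le hle) g s hs
      show unitKummer L S hK (h.1 m) _ = 0
      rw [← hu m, unitKummer_mk]
      refine (kummer_apply_eq_zero_iff hK (u m).1 (nsmul_root p _) ⟨n, n.2⟩).2 (GU.ext ?_)
      rw [GU.val_smul]
      refine (IntermediateField.mem_fixingSubgroup_iff _ _).1 hn _
        (hroot _ (Finset.mem_image_of_mem _ (Finset.mem_univ m)) _ ?_)
      rw [← GU.val_nsmul, nsmul_root]
    · show unitKummer L S hK ((Φ _).1 m) _ = _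
      rw [hΦ, show (c : Gam → V) (n : Gam) = ψ ⟨n, n.2⟩ from hc ⟨n, n.2⟩]
      rfl
  have hrange : continuousH1S S V = LinearMap.range π := by
    rw [LinearMap.range_comp, Submodule.range_subtype]
    rfl
  rw [homDim, hrange]
  exact congrArg Nat.cast (finrank_range_eq_of_ker_eq π Φ' hiff hsurj)

end FLTAgent.GWEuler
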