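import Fermat.Agent.GWEuler.GlobalUnits.PermLattice
import Fermat.Agent.GWEuler.GlobalUnits.Adapted
import Fermat.Agent.IdeleClassCohomology.SUnits

/-!
# The units outside `S` as a lattice

`layerUnits`, their quotient `UnitsFree` by the roots of unity and the logarithmic embedding
`latticeLog` into functions on the places over `S` and infinity, with the orbits of these places
identified.
-/

set_option autoImplicit false

noncomputable section

open CategoryTheory Module ExtCitation NumberField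

namespace FLTAgent.GWEuler

open FLTAgent.GalCoh FLTAgent.GlobalDuality FLTAgent.IdeleClassCohomology

variable {p : ℕ} [hp : Fact p.Prime] (L : Layer) (S : Finset Nat.Primes)

/-- The units of a layer outside `S`. -/
def layerUnits : AddSubgroup (fixedPts L.sub GU) where
  carrier := {a | ∀ q ∉ S, ∀ σ, (principal a.1).at q σ ∈ unitsAt q}
  zero_mem' q _ σ := by
    rw [ZeroMemClass.coe_zero, map_zero]
    exact (unitsAt q).zero_mem
  add_mem' {a b} ha hb q hq σ := by
    rw [AddSubgroup.coe_add, map_add]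
    exact (unitsAt q).add_mem (ha q hq σ) (hb q hq σ)
  neg_mem' {a} ha q hq σ := by
    rw [AddSubgroup.coe_neg, map_neg]
    exact (unitsAt q).neg_mem (ha q hq σ)

theorem mem_layerUnits_iff {a : fixedPts L.sub GU} :
    a ∈ layerUnits L S ↔ ∀ q ∉ S, ∀ σ : Gam, ‖emb q (σ a.1.val)‖ = 1 := Iff.rfl

theorem smul_mem_layerUnits (c : Gam ⧸ L.sub) {a : fixedPts L.sub GU} (ha : a ∈ layerUnits L S) :
    c • a ∈ layerUnits L S := by
  induction c using QuotientGroup.induction_on with
  | _ g => exact fun q hq σ => ha q hq (σ * g)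

instance : DistribMulAction (Gam ⧸ L.sub) (layerUnits L S) where
  smul c a := ⟨c • a.1, smul_mem_layerUnits L S c a.2⟩
  one_smul a := Subtype.ext (one_smul _ a.1)
  mul_smul c d a := Subtype.ext (mul_smul c d a.1)
  smul_zero c := Subtype.ext (smul_zero c)
  smul_add c a b := Subtype.ext (smul_add c a.1 b.1)

theorem layerUnits_eq_placeUnits {R : Finset (Nat.Primes × Gam)}
    (hcov : covered L.field R = {j | j.1 ∈ S}) :
    layerUnits L S = placeUnits L.field R := by
  ext a
  constructor
  · intro ha j hj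
    exact ha j.1 (fun h => hj (by rw [hcov]; exact h)) j.2
  · intro ha q hq σ
    exact ha (q, σ) (by rw [hcov]; exact hq)

theorem finrank_layerUnits {R : Finset (Nat.Primes × Gam)} (hR : IsPlaces L.field R)
    (hcov : covered L.field R = {j | j.1 ∈ S}) :
    haveI := L.finite
    Module.Finite ℤ (layerUnits L S) ∧
      finrank ℤ (layerUnits L S) = Fintype.card (InfinitePlace L.field) - 1 + R.card := by
  have := L.finite
  rw [layerUnits_eq_placeUnits L S hcov]
  exact finrank_placeUnits hR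

instance finite_layerUnits : Module.Finite ℤ (layerUnits L S) := by
  have := L.finite
  obtain ⟨R, hR, hcov, -⟩ := exists_places L.field S
  exact (finrank_layerUnits L S hR hcov).1

/-- The roots of unity of the layer. -/
def unitsTors : AddSubgroup (layerUnits L S) := AddCommGroup.torsion (layerUnits L S)

theorem smul_mem_unitsTors (c : Gam ⧸ L.sub) {a : layerUnits L S} (ha : a ∈ unitsTors L S) :
    c • a ∈ unitsTors L S :=
  AddMonoidHom.isOfFinAddOrder (DistribSMul.toAddMonoidHom (layerUnits L S) c) ha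

instance : DistribMulAction (Gam ⧸ L.sub) (unitsTors L S) where
  smul c a := ⟨c • a.1, smul_mem_unitsTors L S c a.2⟩
  one_smul a := Subtype.ext (one_smul _ a.1)
  mul_smul c d a := Subtype.ext (mul_smul c d a.1)
  smul_zero c := Subtype.ext (smul_zero c)
  smul_add c a b := Subtype.ext (smul_add c a.1 b.1)

/-- The units modulo roots of unity. -/
def UnitsFree : Type := layerUnits L S ⧸ unitsTors L S

instance : AddCommGroup (UnitsFree L S) :=
  inferInstanceAs (AddCommGroup (layerUnits L S ⧸ unitsTors L S))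

/-- The projection to the units modulo roots of unity. -/
def toFree : layerUnits L S →+ UnitsFree L S := QuotientAddGroup.mk' _

instance : DistribMulAction (Gam ⧸ L.sub) (UnitsFree L S) where
  smul c := QuotientAddGroup.map (unitsTors L S) (unitsTors L S)
    (DistribSMul.toAddMonoidHom (layerUnits L S) c)
    fun _ ha => smul_mem_unitsTors L S c ha
  one_smul x := by
    induction x using QuotientAddGroup.induction_on with
    | H a => exact congrArg (toFree L S) (one_smul _ a)
  mul_smul c d x := by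
    induction x using QuotientAddGroup.induction_on with
    | H a => exact congrArg (toFree L S) (mul_smul c d a)
  smul_zero c := map_zero (QuotientAddGroup.map (unitsTors L S) (unitsTors L S)
    (DistribSMul.toAddMonoidHom (layerUnits L S) c) fun _ ha => smul_mem_unitsTors L S c ha)
  smul_add c x y := map_add (QuotientAddGroup.map (unitsTors L S) (unitsTors L S)
    (DistribSMul.toAddMonoidHom (layerUnits L S) c) fun _ ha => smul_mem_unitsTors L S c ha) x y

theorem toFree_surjective : Function.Surjective (toFree L S) := QuotientAddGroup.mk'_surjective _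

theorem toFree_smul (c : Gam ⧸ L.sub) (a : layerUnits L S) :
    toFree L S (c • a) = c • toFree L S a := rfl

instance : Module.Finite ℤ (UnitsFree L S) :=
  Module.Finite.of_surjective (toFree L S).toIntLinearMap (toFree_surjective L S)

theorem eq_zero_of_nsmul {n : ℕ} (hn : n ≠ 0) {x : UnitsFree L S} (h : n • x = 0) : x = 0 := by
  obtain ⟨a, rfl⟩ := toFree_surjective L S x
  rw [← map_nsmul] at h
  exact (QuotientAddGroup.eq_zero_iff a).2
    (IsOfFinAddOrder.of_nsmul ((QuotientAddGroup.eq_zero_iff _).1 h) hn)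

instance : IsAddTorsionFree (UnitsFree L S) :=
  ⟨fun n hn x y h => sub_eq_zero.1 (eq_zero_of_nsmul L S hn (by
    rw [nsmul_sub]; exact sub_eq_zero.2 h))⟩

instance : Module.Free ℤ (UnitsFree L S) := Module.free_of_finite_type_torsion_free'

theorem finite_unitsTors : Finite (unitsTors L S) := by
  have := finite_layerUnits L S
  have : Module.Finite ℤ (unitsTors L S) :=
    inferInstanceAs (Module.Finite ℤ (unitsTors L S).toIntSubmodule)
  have : AddGroup.FG (unitsTors L S) := Module.Finite.iff_addGroup_fg.1 inferInstance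
  exact AddCommGroup.finite_of_fg_isAddTorsion _ fun a =>
    isOfFinAddOrder_iff_nsmul_eq_zero.2
      (by
        obtain ⟨n, hn, h⟩ := isOfFinAddOrder_iff_nsmul_eq_zero.1 a.2
        exact ⟨n, hn, Subtype.ext h⟩)

/-- The image of the decomposition group of a place of `S`. -/
def decomp (v : extArithIndex S) : Subgroup (Gam ⧸ L.sub) :=
  (extArithLoc S v).range.map (QuotientGroup.mk' L.sub)

/-- The places of the layer over `S` and infinity. -/
abbrev PlaceIdx : Type := Σ v : extArithIndex S, (Gam ⧸ L.sub) ⧸ decomp L S v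

/-- An element of the Galois group over a place. -/
def placeRep {v : extArithIndex S} (c : (Gam ⧸ L.sub) ⧸ decomp L S v) : Gam :=
  Quotient.out (Quotient.out c)

theorem mk_placeRep {v : extArithIndex S} (c : (Gam ⧸ L.sub) ⧸ decomp L S v) :
    (QuotientGroup.mk (QuotientGroup.mk (placeRep L S c) : Gam ⧸ L.sub) :
      (Gam ⧸ L.sub) ⧸ decomp L S v) = c := by
  rw [placeRep, QuotientGroup.out_eq', QuotientGroup.out_eq']

/-- The absolute value of a number at a place. -/
def placeAbs : extArithIndex S → QQbar → ℝ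
  | Sum.inl _, z => ‖complexEmbedding z‖
  | Sum.inr q, z => ‖emb q.1 z‖

theorem placeAbs_loc (v : extArithIndex S) (τ : extArithLocalGroups S v) (z : QQbar) :
    placeAbs S v (extArithLoc S v τ z) = placeAbs S v z := by
  cases v with
  | inl u =>
    show ‖complexEmbedding (archimedeanLoc τ z)‖ = ‖complexEmbedding z‖
    rcases sq_archimedean (τ : archimedeanDecomposition) with h | h
    · obtain rfl : τ = 1 := h
      exact congrArg (fun g : Gam => ‖complexEmbedding (g z)‖) (map_one archimedeanLoc)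
    · rw [show τ = archimedeanGen from h, archimedeanLoc_archimedeanGen,
        complexEmbedding_complexConjugation, Complex.norm_conj]
  | inr q =>
    show ‖emb q.1 (primeLocalToGlobal q.1 τ z)‖ = ‖emb q.1 z‖
    exact ((congrArg norm (padicEmbedding_localGaloisToGlobal (q.1 : ℕ) τ z)).trans
      (congrArg NNReal.toReal (nnnorm_padicAlgCl_algEquiv (q.1 : ℕ) τ _)))
  where
    sq_archimedean (g : archimedeanDecomposition) : g = 1 ∨ g = archimedeanGen := by
      obtain ⟨n, hn⟩ := Subgroup.mem_zpowers_iff.1 g.2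
      rcases Int.even_or_odd n with ⟨m, rfl⟩ | ⟨m, rfl⟩
      · refine Or.inl (Subtype.ext ?_)
        rw [← hn, ← two_mul, zpow_mul, zpow_two, complexConjugation_mul_self, one_zpow]
        rfl
      · refine Or.inr (Subtype.ext ?_)
        rw [← hn, zpow_add, zpow_mul, zpow_two, complexConjugation_mul_self, one_zpow, one_mul,
          zpow_one]
        rfl

theorem placeAbs_eq_of_mk {v : extArithIndex S} {a : GU} (ha : a ∈ fixedPts L.sub GU) {g g' : Gam}
    (h : (QuotientGroup.mk (QuotientGroup.mk g : Gam ⧸ L.sub) : (Gam ⧸ L.sub) ⧸ decomp L S v)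
      = QuotientGroup.mk (QuotientGroup.mk g')) :
    placeAbs S v (g'⁻¹ • a).val = placeAbs S v (g⁻¹ • a).val := by
  obtain ⟨_, ⟨τ, rfl⟩, hτ⟩ := Subgroup.mem_map.1 (QuotientGroup.eq.1 h)
  have hn : (g⁻¹ * g')⁻¹ * extArithLoc S v τ ∈ L.sub := by
    rw [← QuotientGroup.eq_one_iff, QuotientGroup.mk_mul, QuotientGroup.mk_inv,
      QuotientGroup.mk_mul, QuotientGroup.mk_inv]
    simp only [QuotientGroup.mk'_apply] at hτ
    rw [hτ, inv_mul_cancel]
  set n := (g⁻¹ * g')⁻¹ * extArithLoc S v τ with hndef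
  have h1 : (g'⁻¹ • a) = (extArithLoc S v τ)⁻¹ • g⁻¹ • a := by
    rw [show g'⁻¹ = n * (extArithLoc S v τ)⁻¹ * g⁻¹ by rw [hndef]; group, mul_smul, mul_smul,
      smul_mem_fixedPts L.sub _ (smul_mem_fixedPts L.sub g⁻¹ ha) n hn]
  rw [h1, ← map_inv, GU.val_smul, placeAbs_loc]

/-- The logarithms of the absolute values. -/
def unitLog : layerUnits L S →+ (PlaceIdx L S → ℝ) :=
  AddMonoidHom.mk' (fun a y => Real.log (placeAbs S y.1 ((placeRep L S y.2)⁻¹ • a.1.1).val))
    fun a b => funext fun y => by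
      have hne : ∀ z : GU, placeAbs S y.1 z.val ≠ 0 := fun z => by
        rcases y.1 with u | q <;>
          exact norm_ne_zero_iff.2 ((map_ne_zero _).2 (GU.val_ne_zero z))
      have hmul : ∀ z w : QQbar, placeAbs S y.1 (z * w) = placeAbs S y.1 z * placeAbs S y.1 w := by
        intro z w
        rcases y.1 with u | q <;> simp [placeAbs, map_mul]
      show Real.log (placeAbs S y.1 (_ • (a.1.1 + b.1.1)).val) = _
      rw [smul_add, GU.val_add, hmul, Real.log_mul (hne _) (hne _)]
      rfl

theorem unitLog_eq (a : layerUnits L S) (v : extArithIndex S) (g : Gam) :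
    unitLog L S a ⟨v, QuotientGroup.mk (QuotientGroup.mk g)⟩ =
      Real.log (placeAbs S v (g⁻¹ • a.1.1).val) :=
  congrArg Real.log (placeAbs_eq_of_mk L S a.1.2
    (mk_placeRep L S (v := v) (QuotientGroup.mk (QuotientGroup.mk g))).symm)

theorem unitLog_smul (c : Gam ⧸ L.sub) (a : layerUnits L S) (y : PlaceIdx L S) :
    unitLog L S (c • a) y = unitLog L S a (c⁻¹ • y) := by
  obtain ⟨g, rfl⟩ := QuotientGroup.mk_surjective c
  obtain ⟨v, d⟩ := y
  obtain ⟨d', rfl⟩ := QuotientGroup.mk_surjective d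
  obtain ⟨h, rfl⟩ := QuotientGroup.mk_surjective d'
  rw [unitLog_eq]
  show _ = unitLog L S a ⟨v, QuotientGroup.mk (QuotientGroup.mk (g⁻¹ * h))⟩
  rw [unitLog_eq, mul_inv_rev, inv_inv, mul_smul]
  rfl

theorem unitLog_eq_zero_of_mem_tors {a : layerUnits L S} (ha : a ∈ unitsTors L S) :
    unitLog L S a = 0 := by
  obtain ⟨n, hn, h⟩ := isOfFinAddOrder_iff_nsmul_eq_zero.1 ha
  funext y
  have h1 := congrFun (congrArg (unitLog L S) h) y
  rw [map_nsmul, map_zero, Pi.smul_apply, nsmul_eq_mul] at h1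
  exact (mul_eq_zero.1 h1).resolve_left (Nat.cast_ne_zero.2 hn.ne')

/-- The logarithms on units modulo roots of unity. -/
def freeLog : UnitsFree L S →+ (PlaceIdx L S → ℝ) :=
  QuotientAddGroup.lift _ (unitLog L S) fun _ ha => unitLog_eq_zero_of_mem_tors L S ha

theorem freeLog_toFree (a : layerUnits L S) : freeLog L S (toFree L S a) = unitLog L S a := rfl

theorem freeLog_smul (c : Gam ⧸ L.sub) (x : UnitsFree L S) (y : PlaceIdx L S) :
    freeLog L S (c • x) y = freeLog L S x (c⁻¹ • y) := by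
  obtain ⟨a, rfl⟩ := toFree_surjective L S x
  rw [← toFree_smul, freeLog_toFree, freeLog_toFree, unitLog_smul]

/-- The single orbit of a point. -/
abbrev PointIdx : Type := Σ _ : Unit, (Gam ⧸ L.sub) ⧸ (⊤ : Subgroup (Gam ⧸ L.sub))

instance : Subsingleton (PointIdx L) :=
  haveI : Subsingleton ((Gam ⧸ L.sub) ⧸ (⊤ : Subgroup (Gam ⧸ L.sub))) :=
    QuotientGroup.subsingleton_quotient_top
  ⟨fun _ _ => Sigma.ext rfl (heq_of_eq (Subsingleton.elim _ _))⟩

/-- The point of the single orbit. -/
def basePoint : PointIdx L := ⟨(), QuotientGroup.mk 1⟩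

/-- The constant vector at infinity. -/
def infVec (y : PlaceIdx L S) : ℝ :=
  match y.1 with
  | Sum.inl _ => 1
  | Sum.inr _ => 0

/-- The lattice map spanning the space of all places. -/
def latticeLog : UnitsFree L S × PermLattice (PointIdx L) →+ (PlaceIdx L S → ℝ) :=
  AddMonoidHom.mk' (fun x y => freeLog L S x.1 y + ((x.2 (basePoint L) : ℤ) : ℝ) * infVec L S y)
    fun a b => funext fun y => by
      show freeLog L S (a.1 + b.1) y + (((a.2 (basePoint L) + b.2 (basePoint L) : ℤ) : ℝ)) * _ =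
        (_ + _) + (_ + _)
      rw [map_add, Pi.add_apply, Int.cast_add, add_mul]
      ring

theorem latticeLog_smul (c : Gam ⧸ L.sub) (x : UnitsFree L S × PermLattice (PointIdx L))
    (y : PlaceIdx L S) : latticeLog L S (c • x) y = latticeLog L S x (c⁻¹ • y) := by
  show freeLog L S (c • x.1) y + _ = freeLog L S x.1 (c⁻¹ • y) + _
  rw [freeLog_smul, show c⁻¹ • y = ⟨y.1, c⁻¹ • y.2⟩ from rfl]
  congr 2
  exact congrArg (fun z => ((x.2 z : ℤ) : ℝ)) (Subsingleton.elim _ _)

/-- The infinite place at a coset. -/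
def infPlace (g : Gam) : InfinitePlace L.field :=
  InfinitePlace.mk (((complexEmbedding : QQbar →+* ℂ).comp
    ((g⁻¹ : Gam) : QQbar →+* QQbar)).comp (algebraMap L.field QQbar))

theorem infPlace_apply (g : Gam) (x : L.field) :
    infPlace L g x = ‖complexEmbedding (g⁻¹ (x : QQbar))‖ := InfinitePlace.apply _ _

theorem infPlace_surjective : Function.Surjective (infPlace L) := by
  intro w
  have := L.finite
  let : Algebra QQbar ℂ := (complexEmbedding : QQbar →+* ℂ).toAlgebra
  have : IsScalarTower ℚ QQbar ℂ := IsScalarTower.of_algebraMap_eq' (Subsingleton.elim _ _)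
  have : Algebra.IsAlgebraic L.field QQbar := Algebra.IsAlgebraic.tower_top (K := ℚ) L.field
  let : Algebra L.field ℂ := w.embedding.toAlgebra
  let ψ : QQbar →ₐ[L.field] ℂ := IsAlgClosed.lift
  let ψ' : QQbar →ₐ[ℚ] ℂ := (ψ : QQbar →+* ℂ).toRatAlgHom
  have hbij : Function.Bijective (ψ'.restrictNormal' QQbar) := AlgEquiv.bijective _
  refine ⟨(ψ'.restrictNormal' QQbar)⁻¹, ?_⟩
  rw [← InfinitePlace.mk_embedding w, infPlace, inv_inv]
  congr 1
  refine RingHom.ext fun x => ?_
  show complexEmbedding ((ψ'.restrictNormal' QQbar) (algebraMap L.field QQbar x)) = _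
  exact (AlgHom.restrictNormal_commutes ψ' QQbar _).trans (ψ.commutes x)

theorem mk_eq_of_infPlace_eq {g g' : Gam} (h : infPlace L g = infPlace L g') :
    (QuotientGroup.mk (QuotientGroup.mk g : Gam ⧸ L.sub) :
      (Gam ⧸ L.sub) ⧸ decomp L S (Sum.inl ())) = QuotientGroup.mk (QuotientGroup.mk g') := by
  refine QuotientGroup.eq.2 (Subgroup.mem_map.2 ?_)
  rcases InfinitePlace.mk_eq_iff.1 h with e | e
  · refine ⟨1, ⟨1, map_one _⟩, ?_⟩
    rw [map_one, ← QuotientGroup.mk_inv, ← QuotientGroup.mk_mul, eq_comm, QuotientGroup.eq_one_iff]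
    have h1 : ∀ x : L.field, (g' * g⁻¹) (x : QQbar) = x := fun x => by
      have h2 : g⁻¹ (x : QQbar) = g'⁻¹ (x : QQbar) :=
        complexEmbedding.injective (RingHom.congr_fun e x)
      rw [AlgEquiv.mul_apply, h2, ← AlgEquiv.mul_apply, mul_inv_cancel]
      rfl
    have h3 : g' * g⁻¹ ∈ L.sub := (IntermediateField.mem_fixingSubgroup_iff _ _).2
      fun x hx => h1 ⟨x, hx⟩
    have := (Layer.sub_normal L).conj_mem _ h3 g⁻¹
    rwa [inv_inv, show g⁻¹ * (g' * g⁻¹) * g = g⁻¹ * g' by group] at this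
  · refine ⟨complexConjugation, ⟨archimedeanGen, rfl⟩, ?_⟩
    rw [QuotientGroup.mk'_apply, ← QuotientGroup.mk_inv, ← QuotientGroup.mk_mul, QuotientGroup.eq]
    have h1 : ∀ x : L.field, (g' * complexConjugation * g⁻¹) (x : QQbar) = x := fun x => by
      have h2 : complexConjugation (g⁻¹ (x : QQbar)) = g'⁻¹ (x : QQbar) :=
        complexEmbedding.injective
          ((complexEmbedding_complexConjugation _).trans (RingHom.congr_fun e x))
      rw [AlgEquiv.mul_apply, AlgEquiv.mul_apply, h2, ← AlgEquiv.mul_apply, mul_inv_cancel]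
      rfl
    have h3 : g' * complexConjugation * g⁻¹ ∈ L.sub :=
      (IntermediateField.mem_fixingSubgroup_iff _ _).2 fun x hx => h1 ⟨x, hx⟩
    have := (Layer.sub_normal L).conj_mem _ h3 (complexConjugation⁻¹ * g⁻¹)
    rwa [show complexConjugation⁻¹ * g⁻¹ * (g' * complexConjugation * g⁻¹) *
      (complexConjugation⁻¹ * g⁻¹)⁻¹ = complexConjugation⁻¹ * (g⁻¹ * g') *
        (complexConjugation * complexConjugation) by group, complexConjugation_mul_self,
      mul_one] at this

/-- The infinite place of a coset. -/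
def infEquivFun (c : (Gam ⧸ L.sub) ⧸ decomp L S (Sum.inl ())) : InfinitePlace L.field :=
  infPlace L (placeRep L S c)

theorem infEquivFun_mk (g : Gam) :
    infEquivFun L S (QuotientGroup.mk (QuotientGroup.mk g)) = infPlace L g := by
  refine InfinitePlace.ext _ _ fun x => ?_
  rcases eq_or_ne x 0 with rfl | hx
  · rw [map_zero, map_zero]
  · rw [infEquivFun, infPlace_apply, infPlace_apply]
    exact placeAbs_eq_of_mk L S (fixedUnit L.field hx).2 (v := Sum.inl ())
      (mk_placeRep L S (v := Sum.inl ()) (QuotientGroup.mk (QuotientGroup.mk g))).symm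

theorem infEquivFun_bijective : Function.Bijective (infEquivFun L S) := by
  refine ⟨fun c d h => ?_, fun w => ?_⟩
  · rw [← mk_placeRep L S c, ← mk_placeRep L S d]
    exact mk_eq_of_infPlace_eq L S h
  · obtain ⟨g, rfl⟩ := infPlace_surjective L w
    exact ⟨_, infEquivFun_mk L S g⟩

variable {R : Finset (Nat.Primes × Gam)}

theorem mem_of_covered (hcov : covered L.field R = {j | j.1 ∈ S}) (i : R) : i.1.1 ∈ S := by
  have h : i.1 ∈ covered L.field R := mem_covered.2 ⟨i.1, i.2, mem_cosetSet_self _ _⟩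
  rw [hcov] at h
  exact h

/-- The finite place of an index. -/
def finIdx (hcov : covered L.field R = {j | j.1 ∈ S}) (i : R) :
    Σ q : S, (Gam ⧸ L.sub) ⧸ decomp L S (Sum.inr q) :=
  ⟨⟨i.1.1, mem_of_covered L S hcov i⟩, QuotientGroup.mk (QuotientGroup.mk i.1.2⁻¹)⟩

theorem finIdx_bijective (hR : IsPlaces L.field R) (hcov : covered L.field R = {j | j.1 ∈ S}) :
    Function.Bijective (finIdx L S hcov) := by
  constructor
  · rintro ⟨⟨q, σ⟩, hi⟩ ⟨⟨q', σ'⟩, hj⟩ h
    have hqq : q = q' := congrArg (fun z => (z.1.1 : Nat.Primes)) h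
    subst hqq
    have h' := eq_of_heq (Sigma.mk.inj_iff.1 h).2
    obtain ⟨_, ⟨τ, rfl⟩, hτ⟩ := Subgroup.mem_map.1 (QuotientGroup.eq.1 h')
    rw [QuotientGroup.mk'_apply, ← QuotientGroup.mk_inv, ← QuotientGroup.mk_mul,
      QuotientGroup.eq, inv_inv] at hτ
    have hm := (Layer.sub_normal L).conj_mem _ (inv_mem hτ) (σ⁻¹ * loc q τ)
    refine Subtype.ext (hR _ hi _ hj (mem_cosetSet_iff.2 ⟨rfl, (τ : LGal q)⁻¹, _, hm, ?_⟩))
    rw [map_inv (loc q)]
    show σ' = (loc q τ)⁻¹ * σ * (σ⁻¹ * loc q τ * ((loc q τ)⁻¹ * (σ * σ'⁻¹))⁻¹ *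
      (σ⁻¹ * loc q τ)⁻¹)
    group
  · rintro ⟨⟨q, hq⟩, c⟩
    obtain ⟨c', rfl⟩ := QuotientGroup.mk_surjective c
    obtain ⟨g, rfl⟩ := QuotientGroup.mk_surjective c'
    obtain ⟨⟨q', σ⟩, hi, hmem⟩ := mem_covered.1
      (show (q, g⁻¹) ∈ covered L.field R by rw [hcov]; exact hq)
    obtain ⟨rfl, τ, n, hn, hg⟩ := mem_cosetSet_iff.1 hmem
    refine ⟨⟨_, hi⟩, Sigma.ext rfl (heq_of_eq ?_)⟩
    refine QuotientGroup.eq.2 (Subgroup.mem_map.2 ⟨loc q τ⁻¹, ⟨τ⁻¹, rfl⟩, ?_⟩)
    have hm := (Layer.sub_normal L).conj_mem _ (inv_mem hn) (loc q τ * σ)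
    rw [QuotientGroup.mk'_apply, ← QuotientGroup.mk_inv, ← QuotientGroup.mk_mul, QuotientGroup.eq,
      inv_inv, map_inv, inv_inv, inv_eq_iff_eq_inv.1 hg]
    show loc q τ * (σ * (loc q τ * σ * n)⁻¹) ∈ L.sub
    rwa [show loc q τ * (σ * (loc q τ * σ * n)⁻¹) = loc q τ * σ * n⁻¹ * (loc q τ * σ)⁻¹ by group]

theorem unitLog_finIdx (hcov : covered L.field R = {j | j.1 ∈ S}) (i : R) (a : layerUnits L S) :
    unitLog L S a ⟨Sum.inr (finIdx L S hcov i).1, (finIdx L S hcov i).2⟩ =
      Real.log ‖emb i.1.1 (i.1.2 a.1.1.val)‖ := by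
  refine (unitLog_eq L S a (Sum.inr ⟨i.1.1, mem_of_covered L S hcov i⟩) i.1.2⁻¹).trans ?_
  rw [inv_inv]
  rfl

/-- All places, from infinite places and indices of finite ones. -/
def joinIdx (hcov : covered L.field R = {j | j.1 ∈ S}) : InfinitePlace L.field ⊕ R → PlaceIdx L S
  | Sum.inl w => ⟨Sum.inl (), (Equiv.ofBijective _ (infEquivFun_bijective L S)).symm w⟩
  | Sum.inr i => ⟨Sum.inr (finIdx L S hcov i).1, (finIdx L S hcov i).2⟩

theorem joinIdx_bijective (hR : IsPlaces L.field R) (hcov : covered L.field R = {j | j.1 ∈ S}) :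
    Function.Bijective (joinIdx L S hcov) := by
  constructor
  · rintro (w | i) (w' | j) h
    · exact congrArg Sum.inl ((Equiv.ofBijective _ (infEquivFun_bijective L S)).symm.injective
        (eq_of_heq (Sigma.mk.inj_iff.1 h).2))
    · exact absurd (Sigma.mk.inj_iff.1 h).1 Sum.inl_ne_inr
    · exact absurd (Sigma.mk.inj_iff.1 h).1 Sum.inr_ne_inl
    · obtain ⟨h1, h2⟩ := Sigma.mk.inj_iff.1 h
      exact congrArg Sum.inr ((finIdx_bijective L S hR hcov).1
        (Sigma.ext (Sum.inr_injective h1) h2))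
  · rintro ⟨u | q, c⟩
    · exact ⟨Sum.inl (infEquivFun L S c), Sigma.ext rfl (heq_of_eq
        ((Equiv.ofBijective _ (infEquivFun_bijective L S)).symm_apply_apply c))⟩
    · obtain ⟨i, hi⟩ := (finIdx_bijective L S hR hcov).2 ⟨q, c⟩
      refine ⟨Sum.inr i, ?_⟩
      rw [joinIdx, hi]

end FLTAgent.GWEuler
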