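import Fermat.Agent.GWEuler.GlobalUnits.HomSpace
import Mathlib.LinearAlgebra.Trace
import Mathlib.Data.Real.Basic

/-!
# Lattices that are permutation modules over the reals

An additive function takes on the reduction of such a lattice the value at the permutation module
(`redMod_eq_permRep`).  Applied to the units outside `S` through their logarithms.
-/

set_option autoImplicit false

noncomputable section

open CategoryTheory Module

namespace FLTAgent.GWEuler

variable {p : ℕ} [Fact p.Prime] {G : Type} [Group G] {e : Rep.{0} (ZMod p) G → ℤ}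

/-- Reduction modulo `p` of a short exact sequence with third term free of `p`-torsion. -/
theorem redMod_eq_add (he : IsAdditive e) {A B C : Type} [AddCommGroup A] [DistribMulAction G A]
    [AddCommGroup B] [DistribMulAction G B] [AddCommGroup C] [DistribMulAction G C]
    [Module.Finite ℤ A] [Module.Finite ℤ B] [Module.Finite ℤ C] (i : A →+ B) (π : B →+ C)
    (hi : ∀ (g : G) (a : A), i (g • a) = g • i a) (hπ : ∀ (g : G) (b : B), π (g • b) = g • π b)
    (hinj : Function.Injective i) (hsurj : Function.Surjective π)
    (hex : ∀ b, π b = 0 ↔ ∃ a, i a = b) (hC : ∀ c : C, p • c = 0 → c = 0) :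
    e (redMod p G B) = e (redMod p G A) + e (redMod p G C) := by
  have := finite_redMod (p := p) (G := G) A
  have := finite_redMod (p := p) (G := G) B
  have := finite_redMod (p := p) (G := G) C
  refine he _ _ _ (redMap (p := p) i) (redMap (p := p) π) (redMap_equiv i hi) (redMap_equiv π hπ)
    ((injective_iff_map_eq_zero _).2 fun x hx => ?_) (fun y => ?_)
    fun y => ⟨fun hy => ?_, ?_⟩
  · induction x using QuotientAddGroup.induction_on with
    | H a =>
      change (QuotientAddGroup.mk (i a) : ModP B p) = 0 at hx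
      obtain ⟨b, hb⟩ := (QuotientAddGroup.eq_zero_iff _).1 hx
      replace hb : p • b = i a := hb
      obtain ⟨a', rfl⟩ := (hex b).1 (hC _ (by rw [← map_nsmul, hb, (hex _).2 ⟨a, rfl⟩]))
      exact (QuotientAddGroup.eq_zero_iff _).2 ⟨a', hinj ((map_nsmul i p a').trans hb)⟩
  · induction y using QuotientAddGroup.induction_on with
    | H c =>
      obtain ⟨b, rfl⟩ := hsurj c
      exact ⟨QuotientAddGroup.mk b, redMap_mk π b⟩
  · induction y using QuotientAddGroup.induction_on with
    | H b =>
      change (QuotientAddGroup.mk (π b) : ModP C p) = 0 at hy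
      obtain ⟨c, hc⟩ := (QuotientAddGroup.eq_zero_iff _).1 hy
      replace hc : p • c = π b := hc
      obtain ⟨b', rfl⟩ := hsurj c
      obtain ⟨a, ha⟩ := (hex (b - p • b')).1 (by rw [map_sub, map_nsmul, hc, sub_self])
      refine ⟨QuotientAddGroup.mk a, ?_⟩
      show (QuotientAddGroup.mk (i a) : ModP B p) = QuotientAddGroup.mk b
      rw [ha]
      refine (QuotientAddGroup.eq).2 ⟨b', ?_⟩
      show p • b' = -(b - p • b') + b
      abel
  · rintro ⟨x, rfl⟩
    induction x using QuotientAddGroup.induction_on with
    | H a =>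
      show (QuotientAddGroup.mk (π (i a)) : ModP C p) = 0
      rw [(hex _).2 ⟨a, rfl⟩]
      rfl

/-- Integer valued functions on a `G`-set. -/
def PermLattice (Y : Type) : Type := Y → ℤ

namespace PermLattice

variable (Y : Type)

instance : AddCommGroup (PermLattice Y) := inferInstanceAs (AddCommGroup (Y → ℤ))

variable [MulAction G Y]

instance : DistribMulAction G (PermLattice Y) where
  smul g f y := f (g⁻¹ • y)
  one_smul f := funext fun y => by
    show f ((1 : G)⁻¹ • y) = f y
    rw [inv_one, one_smul]
  mul_smul g h f := funext fun y => by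
    show f ((g * h)⁻¹ • y) = f (h⁻¹ • g⁻¹ • y)
    rw [mul_inv_rev, mul_smul]
  smul_zero _ := rfl
  smul_add _ _ _ := rfl

instance [Finite Y] : Module.Free ℤ (PermLattice Y) := inferInstanceAs (Module.Free ℤ (Y → ℤ))

instance [Finite Y] : Module.Finite ℤ (PermLattice Y) := inferInstanceAs (Module.Finite ℤ (Y → ℤ))

theorem smul_apply (g : G) (f : PermLattice Y) (y : Y) : (g • f) y = f (g⁻¹ • y) := rfl

/-- The real valued function of an integer valued one. -/
def toReal : PermLattice Y →+ (Y → ℝ) := (Int.castAddHom ℝ).compLeft Y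

/-- Its reduction is the permutation module. -/
theorem redMod_eq [Finite G] [Finite Y] (he : IsAdditive e) :
    e (redMod p G (PermLattice Y)) = e (permRep p G Y) := by
  have := finite_redMod (p := p) (G := G) (PermLattice Y)
  have : FiniteDimensional (ZMod p) (permRep p G Y) :=
    inferInstanceAs (FiniteDimensional (ZMod p) (Y → ZMod p))
  let f : ModP (PermLattice Y) p →+ (Y → ZMod p) :=
    QuotientAddGroup.lift _ ((Int.castAddHom (ZMod p)).compLeft Y) (by
      rintro _ ⟨a, rfl⟩
      refine funext fun y => ?_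
      show (((p • a : PermLattice Y) y : ℤ) : ZMod p) = 0
      rw [show (p • a : PermLattice Y) y = p • a y from rfl, nsmul_eq_mul, Int.cast_mul,
        Int.cast_natCast, ZMod.natCast_self, zero_mul])
  refine he.eq_of_bijective (redMod p G (PermLattice Y)) (permRep p G Y)
    (AddMonoidHom.toZModLinearMap p f) (fun g x => ?_)
    ⟨(injective_iff_map_eq_zero f).2 fun x hx => ?_, fun v => ?_⟩
  · induction x using QuotientAddGroup.induction_on with
    | H a => rfl
  · induction x using QuotientAddGroup.induction_on with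
    | H a =>
      have h1 : ∀ y, (p : ℤ) ∣ a y := fun y =>
        (ZMod.intCast_zmod_eq_zero_iff_dvd _ p).1 (congrFun hx y)
      choose c hc using h1
      refine (QuotientAddGroup.eq_zero_iff _).2 ⟨c, funext fun y => ?_⟩
      rw [hc y]
      exact nsmul_eq_mul p (c y)
  · refine ⟨QuotientAddGroup.mk (fun y => ((v y).val : ℤ)), funext fun y => ?_⟩
    show (((v y).val : ℤ) : ZMod p) = v y
    rw [Int.cast_natCast, ZMod.natCast_zmod_val]

end PermLattice

/-- The character of a lattice that becomes a permutation module over the reals. -/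
theorem trace_actRep_eq {Y : Type} [Fintype Y] [DecidableEq Y] [MulAction G Y] (A : Type)
    [AddCommGroup A] [DistribMulAction G A] [Module.Free ℤ A] [Module.Finite ℤ A]
    (ι : A →+ (Y → ℝ)) (hι : ∀ (g : G) (a : A) (y : Y), ι (g • a) y = ι a (g⁻¹ • y))
    (hspan : Submodule.span ℝ (Set.range ι) = ⊤) (hrank : finrank ℤ A ≤ Fintype.card Y) (g : G) :
    ((LinearMap.trace ℤ A (actRep A g) : ℤ) : ℝ) =
      LinearMap.trace ℝ (Y → ℝ) (LinearMap.funLeft ℝ ℝ fun y : Y => g⁻¹ • y) := by
  classical
  let b := Module.finBasis ℤ A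
  have hsum : ∀ a, ι a = ∑ i, ((b.repr a i : ℤ) : ℝ) • ι (b i) := fun a => by
    conv_lhs => rw [← b.sum_repr a, map_sum]
    exact Finset.sum_congr rfl fun i _ => by rw [map_zsmul, Int.cast_smul_eq_zsmul]
  have htop : ⊤ ≤ Submodule.span ℝ (Set.range fun i => ι (b i)) := by
    rw [← hspan, Submodule.span_le]
    rintro _ ⟨a, rfl⟩
    rw [hsum a]
    exact Submodule.sum_mem _ fun i _ => Submodule.smul_mem _ _ (Submodule.subset_span ⟨i, rfl⟩)
  have hle : Fintype.card Y ≤ finrank ℤ A := by
    have h1 := finrank_range_le_card (R := ℝ) fun i => ι (b i)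
    rw [Set.finrank, top_le_iff.1 htop, finrank_top, Module.finrank_pi] at h1
    simpa using h1
  have hli : LinearIndependent ℝ fun i => ι (b i) :=
    linearIndependent_of_top_le_span_of_card_eq_finrank htop (by
      rw [Fintype.card_fin, Module.finrank_pi]; exact le_antisymm hrank hle)
  let B := Basis.mk hli htop
  rw [LinearMap.trace_eq_matrix_trace ℤ b, LinearMap.trace_eq_matrix_trace ℝ B, Matrix.trace,
    Matrix.trace, Int.cast_sum]
  refine Finset.sum_congr rfl fun i _ => ?_
  simp only [Matrix.diag_apply, LinearMap.toMatrix_apply]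
  have h2 : (LinearMap.funLeft ℝ ℝ fun y : Y => g⁻¹ • y) (B i) =
      ∑ j, ((b.repr (g • b i) j : ℤ) : ℝ) • B j := by
    simp only [B, Basis.coe_mk]
    rw [← hsum]
    exact funext fun y => (hι g (b i) y).symm
  rw [h2, B.repr_sum_self, actRep_apply]

/-- An additive function on such a lattice is the one of the permutation module. -/
theorem redMod_eq_permRep [Finite G] (he : IsAdditive e) {Y : Type} [Finite Y] [MulAction G Y]
    (A : Type) [AddCommGroup A] [DistribMulAction G A] [Module.Free ℤ A] [Module.Finite ℤ A]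
    (ι : A →+ (Y → ℝ)) (hι : ∀ (g : G) (a : A) (y : Y), ι (g • a) y = ι a (g⁻¹ • y))
    (hspan : Submodule.span ℝ (Set.range ι) = ⊤) (hrank : finrank ℤ A ≤ Nat.card Y) :
    e (redMod p G A) = e (permRep p G Y) := by
  classical
  let := Fintype.ofFinite Y
  rw [Nat.card_eq_fintype_card] at hrank
  rw [← PermLattice.redMod_eq Y he]
  refine redMod_eq_of_trace he fun g => ?_
  refine Int.cast_injective (α := ℝ) ?_
  rw [trace_actRep_eq A ι hι hspan hrank g,
    trace_actRep_eq (PermLattice Y) (PermLattice.toReal Y) (fun _ _ _ => rfl) ?_ ?_ g]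
  · refine eq_top_iff.2 fun v _ => ?_
    rw [pi_eq_sum_univ v]
    refine Submodule.sum_mem _ fun i _ => Submodule.smul_mem _ _ (Submodule.subset_span
      ⟨fun j => if i = j then 1 else 0, funext fun j => ?_⟩)
    show (((if i = j then (1 : ℤ) else 0) : ℤ) : ℝ) = _
    split <;> simp
  · exact le_of_eq (Module.finrank_pi ℤ)

end FLTAgent.GWEuler
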